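import Fermat.Agent.LT.WeightOne.Gamma1Ops
import Fermat.Prelude.Thm_ModularForm_sturm_bound_of_isArithmetic

/-!
# Hecke and diamond operators on cusp forms on `Γ₁(N)`
-/

set_option autoImplicit false

noncomputable section

open CongruenceSubgroup UpperHalfPlane ModularFormClass Matrix.SpecialLinearGroup
open scoped MatrixGroups ModularForm Manifold

namespace Fermat.Agent.LT.WeightOne

variable {k : ℤ} {N : ℕ}

theorem one_mem_strictPeriods_Gamma1 (N : ℕ) :
    (1 : ℝ) ∈ ((Gamma1 N : Subgroup SL(2, ℤ)) : Subgroup (GL (Fin 2) ℝ)).strictPeriods := by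
  simp

theorem periodic_form (f : CuspForm (Gamma1 N) k) :
    Function.Periodic (⇑f ∘ UpperHalfPlane.ofComplex) 1 :=
  SlashInvariantFormClass.periodic_comp_ofComplex f (one_mem_strictPeriods_Gamma1 N)

theorem bdd_form (f : CuspForm (Gamma1 N) k) : IsBoundedAtImInfty (⇑f) := by
  have : Fact (IsCusp OnePoint.infty
      (Subgroup.map (Matrix.SpecialLinearGroup.mapGL ℝ) (Gamma1 N))) :=
    ⟨Subgroup.isCusp_of_mem_strictPeriods one_pos (one_mem_strictPeriods_Gamma1 N)⟩
  exact ModularFormClass.bdd_at_infty f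

theorem analyticAt_form (f : CuspForm (Gamma1 N) k) : AnalyticAt ℂ (cuspFunction 1 ⇑f) 0 :=
  UpperHalfPlane.analyticAt_cuspFunction_zero one_pos (periodic_form f) (CuspFormClass.holo f)
    (bdd_form f)

theorem isInv_form (f : CuspForm (Gamma1 N) k) : IsInv k N ⇑f := fun γ hγ => by
  rw [sl_slash]
  exact SlashInvariantFormClass.slash_action_eq f _ ⟨γ, hγ, rfl⟩

theorem form_ext_qCoeff {f g : CuspForm (Gamma1 N) k} (h : ∀ n, qCoeff f n = qCoeff g n) :
    f = g :=
  DFunLike.coe_injective <|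
    UpperHalfPlane.eq_of_forall_qCoeff_eq (periodic_form f) (CuspFormClass.holo f) (bdd_form f)
      (periodic_form g) (CuspFormClass.holo g) (bdd_form g) h

theorem qCoeff_form_zero (f : CuspForm (Gamma1 N) k) : qCoeff f 0 = 0 :=
  CuspFormClass.qExpansion_coeff_zero f one_pos (one_mem_strictPeriods_Gamma1 N)

/-- The `n`-th coefficient, linearly. -/
def coeffLin (k : ℤ) (N n : ℕ) : CuspForm (Gamma1 N) k →ₗ[ℂ] ℂ where
  toFun f := qCoeff f n
  map_add' f g := by
    simp only [qCoeff, FunLike.coe_add]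
    rw [UpperHalfPlane.qExpansion_add (analyticAt_form f) (analyticAt_form g), map_add]
  map_smul' c f := by
    simp only [qCoeff, FunLike.coe_smul, RingHom.id_apply]
    rw [UpperHalfPlane.qExpansion_smul (analyticAt_form f), PowerSeries.coeff_smul, smul_eq_mul]

@[simp] theorem coeffLin_apply (n : ℕ) (f : CuspForm (Gamma1 N) k) :
    coeffLin k N n f = qCoeff f n := rfl

theorem qCoeff_form_smul (c : ℂ) (f : CuspForm (Gamma1 N) k) (n : ℕ) :
    qCoeff ⇑(c • f) n = c * qCoeff f n :=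
  (coeffLin k N n).map_smul c f

theorem finiteDimensional_cuspForm [NeZero N] (k : ℤ) :
    FiniteDimensional ℂ (CuspForm (Gamma1 N) k) := by
  set B := (k * ((Gamma1 N : Subgroup SL(2, ℤ)) : Subgroup (GL (Fin 2) ℝ)).relIndex 𝒮ℒ).toNat / 12
  refine Module.Finite.of_injective (LinearMap.pi fun i : Fin (B + 1) => coeffLin k N i) ?_
  rw [← LinearMap.ker_eq_bot, LinearMap.ker_eq_bot']
  intro f hf
  have h0 : (ModularFormClass.modularForm f : ModularForm (Gamma1 N) k) = 0 := by
    refine ModularForm.sturm_bound_of_isArithmetic (one_mem_strictPeriods_Gamma1 N) ?_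
    refine lt_of_lt_of_le (b := ((B + 1 : ℕ) : ℕ∞)) (by exact_mod_cast Nat.lt_succ_self B) ?_
    refine PowerSeries.nat_le_order _ _ fun i hi => ?_
    exact congrFun hf ⟨i, hi⟩
  refine DFunLike.coe_injective ?_
  have := congrArg (fun F : ModularForm (Gamma1 N) k => (⇑F : ℍ → ℂ)) h0
  simpa using this

/-! ### Cusp conditions -/

theorem isZeroAt_diaFun [NeZero N] (f : CuspForm (Gamma1 N) k) (γ : SL(2, ℤ)) {c : OnePoint ℝ}
    (hc : IsCusp c (Gamma1 N : Subgroup (GL (Fin 2) ℝ))) :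
    c.IsZeroAt (⇑f ∣[k] γ) k := by
  rw [Subgroup.IsArithmetic.isCusp_iff_isCusp_SL2Z] at hc
  obtain ⟨δ, rfl⟩ := isCusp_SL2Z_iff'.mp hc
  have hc' : IsCusp (mapGL ℝ (γ * δ) • (OnePoint.infty : OnePoint ℝ))
      (Gamma1 N : Subgroup (GL (Fin 2) ℝ)) := by
    rw [Subgroup.IsArithmetic.isCusp_iff_isCusp_SL2Z, isCusp_SL2Z_iff']
    exact ⟨_, rfl⟩
  rw [OnePoint.isZeroAt_iff (g := mapGL ℝ δ) rfl, sl_slash, ← SlashAction.slash_mul, ← map_mul]
  exact CuspFormClass.zero_at_cusps f hc' _ rfl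

/-- The diamond operator on cusp forms. -/
def diaForm [NeZero N] (a : ℕ) (f : CuspForm (Gamma1 N) k) : CuspForm (Gamma1 N) k where
  toFun := diaFun k N a f
  slash_action_eq' := by
    rintro _ ⟨γ, hγ, rfl⟩
    exact (isInv_form f).slash_gamma0 (lowRow N a) γ hγ
  holo' := (CuspFormClass.holo f).slash k _
  zero_at_cusps' hc := isZeroAt_diaFun f _ hc

variable {p : ℕ} [hp : Fact p.Prime] [NeZero N]

omit hp in
theorem diagPart_eq_sub (f : CuspForm (Gamma1 N) k) (h : ¬ p ∣ N) :
    diagPart k N p ⇑f = ModularForm.heckeT k p ⇑(diaForm p f) - ModularForm.heckeU k p ⇑(diaForm p f) := by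
  rw [diagPart, if_neg h, ModularForm.heckeT_eq_heckeU_add, add_sub_cancel_left]
  rfl

theorem isZeroAt_heckeOp (f : CuspForm (Gamma1 N) k) {c : OnePoint ℝ}
    (hc : IsCusp c (Gamma1 N : Subgroup (GL (Fin 2) ℝ))) : c.IsZeroAt (heckeOp k N p ⇑f) k := by
  have hU := CuspFormClass.isZeroAt_heckeU f p hc
  intro g hg
  rw [heckeOp_eq, SlashAction.add_slash]
  refine Filter.ZeroAtFilter.add (hU g hg) ?_
  by_cases h : p ∣ N
  · rw [diagPart, if_pos h, SlashAction.zero_slash]
    exact tendsto_const_nhds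
  · rw [diagPart_eq_sub f h, sub_eq_add_neg, SlashAction.add_slash, SlashAction.neg_slash]
    exact Filter.ZeroAtFilter.add (CuspFormClass.isZeroAt_heckeT (diaForm p f) p hc g hg)
      (Filter.ZeroAtFilter.neg (CuspFormClass.isZeroAt_heckeU (diaForm p f) p hc g hg))

/-- `T_p` / `U_p` on cusp forms. -/
def heckeForm (p : ℕ) [Fact p.Prime] (f : CuspForm (Gamma1 N) k) : CuspForm (Gamma1 N) k where
  toFun := heckeOp k N p f
  slash_action_eq' := by
    rintro _ ⟨γ, hγ, rfl⟩
    exact (isInv_form f).heckeOp γ hγ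
  holo' := by
    show MDiff (heckeOp k N p ⇑f)
    unfold heckeOp
    exact MDifferentiable.sum fun i _ => (CuspFormClass.holo f).slash k _
  zero_at_cusps' hc := isZeroAt_heckeOp f hc

@[simp] theorem coe_heckeForm (f : CuspForm (Gamma1 N) k) :
    ⇑(heckeForm p f) = heckeOp k N p ⇑f := rfl

omit hp in
@[simp] theorem coe_diaForm (a : ℕ) (f : CuspForm (Gamma1 N) k) :
    ⇑(diaForm a f) = diaFun k N a ⇑f := rfl

omit hp in
/-- The diamond operator, linearly. -/
def diaLin (k : ℤ) (N a : ℕ) [NeZero N] : Module.End ℂ (CuspForm (Gamma1 N) k) where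
  toFun := diaForm a
  map_add' f g := DFunLike.coe_injective <| by simp [diaFun, SlashAction.add_slash]
  map_smul' c f := DFunLike.coe_injective <| by simp [diaFun, ModularForm.SL_smul_slash]

omit [NeZero N] in
theorem σ_repGL (i : HK.HeckeIdx N p) : UpperHalfPlane.σ (repGL i) = .refl ℝ ℂ := by
  refine (UpperHalfPlane.σ.eq_def _).trans (if_pos ?_)
  rw [Matrix.GeneralLinearGroup.val_det_apply, val_repGL, ← RingHom.mapMatrix_apply,
    ← RingHom.map_det, (inDelta_rep i).det]
  simp [hp.out.pos]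

/-- `T_p` / `U_p`, linearly. -/
def heckeLin (k : ℤ) (N p : ℕ) [NeZero N] [Fact p.Prime] :
    Module.End ℂ (CuspForm (Gamma1 N) k) where
  toFun := heckeForm p
  map_add' f g := DFunLike.coe_injective <| by
    simp [heckeOp, SlashAction.add_slash, Finset.sum_add_distrib]
  map_smul' c f := DFunLike.coe_injective <| by
    simp [heckeOp, ModularForm.smul_slash, Finset.smul_sum, σ_repGL]

@[simp] theorem heckeLin_apply (f : CuspForm (Gamma1 N) k) : heckeLin k N p f = heckeForm p f := rfl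

omit hp in
@[simp] theorem diaLin_apply (a : ℕ) (f : CuspForm (Gamma1 N) k) :
    diaLin k N a f = diaForm a f := rfl

/-! ### Coefficients -/

/-- `a (p n) + [p ∤ N, p ∣ n] p^(k-1) b (n / p)`, with `b` the coefficients of `⟨p⟩ f`. -/
theorem qCoeff_heckeForm (f : CuspForm (Gamma1 N) k) (n : ℕ) :
    qCoeff (heckeForm p f) n = qCoeff f (n * p) +
      if ¬ p ∣ N ∧ p ∣ n then (p : ℂ) ^ (k - 1) * qCoeff (diaForm p f) (n / p) else 0 := by
  have hp0 : p ≠ 0 := hp.out.ne_zero
  have aU : ∀ g : CuspForm (Gamma1 N) k,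
      AnalyticAt ℂ (cuspFunction 1 (ModularForm.heckeU k p ⇑g)) 0 := fun g =>
    UpperHalfPlane.analyticAt_cuspFunction_zero one_pos
      (ModularForm.periodic_heckeU_comp_ofComplex (periodic_form g) k p)
      (ModularForm.mdifferentiable_heckeU (CuspFormClass.holo g) k p)
      (ModularForm.isBoundedAtImInfty_heckeU (bdd_form g) k p)
  have cU : ∀ (g : CuspForm (Gamma1 N) k), qCoeff (ModularForm.heckeU k p ⇑g) n = qCoeff g (n * p) :=
    fun g => by
      rw [UpperHalfPlane.qCoeff_heckeU (periodic_form g) (CuspFormClass.holo g) (bdd_form g) k hp0]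
      rfl
  rw [coe_heckeForm, heckeOp_eq]
  by_cases h : p ∣ N
  · rw [diagPart, if_pos h, add_zero, cU, if_neg (fun h' => h'.1 h), add_zero]
  · have aT : AnalyticAt ℂ (cuspFunction 1 (ModularForm.heckeT k p ⇑(diaForm p f))) 0 :=
      UpperHalfPlane.analyticAt_cuspFunction_zero one_pos
        (ModularForm.periodic_heckeT_comp_ofComplex (periodic_form _) k p)
        (ModularForm.mdifferentiable_heckeT (CuspFormClass.holo _) k p)
        (ModularForm.isBoundedAtImInfty_heckeT (bdd_form _) k p)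
    have aD : AnalyticAt ℂ (cuspFunction 1 (ModularForm.heckeT k p ⇑(diaForm p f) -
        ModularForm.heckeU k p ⇑(diaForm p f))) 0 := by
      rw [cuspFunction_sub aT.continuousAt (aU _).continuousAt]
      exact aT.sub (aU _)
    rw [diagPart_eq_sub f h]
    show (qExpansion 1 _).coeff n = _
    rw [UpperHalfPlane.qExpansion_add (aU f) aD, UpperHalfPlane.qExpansion_sub aT (aU _),
      map_add, map_sub]
    change qCoeff (ModularForm.heckeU k p ⇑f) n + (qCoeff (ModularForm.heckeT k p ⇑(diaForm p f)) n -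
      qCoeff (ModularForm.heckeU k p ⇑(diaForm p f)) n) = _
    rw [UpperHalfPlane.qCoeff_heckeT (periodic_form _) (CuspFormClass.holo _) (bdd_form _) k hp0,
      cU, cU, ModularForm.coeffHeckeT_apply, add_sub_cancel_left]
    simp [h]

/-! ### Commutation -/

theorem diaForm_heckeForm (a : ℕ) (f : CuspForm (Gamma1 N) k) :
    diaForm a (heckeForm p f) = heckeForm p (diaForm a f) :=
  DFunLike.coe_injective <| by
    simp only [coe_diaForm, coe_heckeForm]
    exact (isInv_form f).diaFun_heckeOp a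

omit hp in
theorem diaForm_diaForm {a b c : ℕ} (ha : Nat.Coprime a N) (hb : Nat.Coprime b N)
    (hc : Nat.Coprime c N) (h : ((a * b : ℕ) : ZMod N) = (c : ZMod N))
    (f : CuspForm (Gamma1 N) k) : diaForm b (diaForm a f) = diaForm c f :=
  DFunLike.coe_injective <| (isInv_form f).diaFun_mul ha hb hc h

omit hp in
theorem diaForm_comm (a b : ℕ) (ha : Nat.Coprime a N) (hb : Nat.Coprime b N)
    (f : CuspForm (Gamma1 N) k) : diaForm b (diaForm a f) = diaForm a (diaForm b f) := by
  rw [diaForm_diaForm ha hb (ha.mul_left hb) rfl,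
    diaForm_diaForm hb ha (ha.mul_left hb) (by rw [mul_comm])]

theorem heckeForm_comm {q : ℕ} [hq : Fact q.Prime] (f : CuspForm (Gamma1 N) k) :
    heckeForm p (heckeForm q f) = heckeForm q (heckeForm p f) := by
  rcases eq_or_ne p q with rfl | hne
  · rfl
  have hpq : Nat.Coprime p q := (Nat.coprime_primes hp.out hq.out).2 hne
  refine form_ext_qCoeff fun n => ?_
  have h1 : q ∣ n * p ↔ q ∣ n :=
    ⟨fun h => hpq.symm.dvd_of_dvd_mul_right h, fun h => h.mul_right p⟩
  have h2 : p ∣ n * q ↔ p ∣ n :=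
    ⟨fun h => hpq.dvd_of_dvd_mul_right h, fun h => h.mul_right q⟩
  have e1 : q ∣ n → n * p / q = n / q * p := fun h => by rw [Nat.div_mul_right_comm h]
  have e2 : p ∣ n → n * q / p = n / p * q := fun h => by rw [Nat.div_mul_right_comm h]
  have hdia : ¬ p ∣ N → ¬ q ∣ N → diaForm q (diaForm p f) = diaForm p (diaForm q f) := fun a b =>
    diaForm_comm p q (coprime_of_not_dvd a) (coprime_of_not_dvd b) f
  simp only [qCoeff_heckeForm, diaForm_heckeForm, h1, h2]
  rw [mul_right_comm n q p]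
  by_cases a : ¬ p ∣ N ∧ p ∣ n <;> by_cases b : ¬ q ∣ N ∧ q ∣ n
  · have hd1 : q ∣ n / p := by
      obtain ⟨m, rfl⟩ := a.2
      rw [Nat.mul_div_cancel_left m hp.out.pos]
      exact hpq.symm.dvd_of_dvd_mul_left b.2
    have hd2 : p ∣ n / q := by
      obtain ⟨m, rfl⟩ := b.2
      rw [Nat.mul_div_cancel_left m hq.out.pos]
      exact hpq.dvd_of_dvd_mul_left a.2
    rw [if_pos a, if_pos b, if_pos a, if_pos b, if_pos ⟨b.1, hd1⟩, if_pos ⟨a.1, hd2⟩,
      e1 b.2, e2 a.2, hdia a.1 b.1, Nat.div_div_eq_div_mul, Nat.div_div_eq_div_mul, mul_comm q p]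
    ring
  · have hb' : ¬ (¬ q ∣ N ∧ q ∣ n / p) := fun h => b ⟨h.1, h.2.trans (Nat.div_dvd_of_dvd a.2)⟩
    rw [if_pos a, if_pos a, if_neg b, if_neg b, if_neg hb', e2 a.2]
    ring
  · have ha' : ¬ (¬ p ∣ N ∧ p ∣ n / q) := fun h => a ⟨h.1, h.2.trans (Nat.div_dvd_of_dvd b.2)⟩
    rw [if_pos b, if_pos b, if_neg a, if_neg a, if_neg ha', e1 b.2]
    ring
  · rw [if_neg a, if_neg a, if_neg b, if_neg b]

end Fermat.Agent.LT.WeightOne
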