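import Mathlib

/-!
# Harmonic Fourier series of weight one

`harmSeries h cp cm τ = ∑ cp(n) e(nτ/h) + ∑ cm(n) E₁(4πnv/h) e(-nτ/h)`, with `E₁` the exponential
integral and `v = im τ`. Its derivative in `conj τ` is computed termwise.
-/

set_option autoImplicit false

noncomputable section

open Complex Filter Topology MeasureTheory Set
open scoped ComplexConjugate Real

namespace Fermat.Agent.LT.WeightOne

/-- The exponential integral. -/
def expInt (x : ℝ) : ℝ := ∫ t in Ioi x, Real.exp (-t) / t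

theorem integrableOn_exp_neg_div {c : ℝ} (hc : 0 < c) :
    IntegrableOn (fun t : ℝ => Real.exp (-t) / t) (Ioi c) := by
  refine Integrable.mono' ((integrableOn_exp_neg_Ioi c).div_const c) ?_ ?_
  · exact (Measurable.aestronglyMeasurable (by fun_prop))
  · filter_upwards [ae_restrict_mem measurableSet_Ioi] with t (ht : c < t)
    rw [Real.norm_eq_abs, abs_div, abs_of_pos (Real.exp_pos _), abs_of_pos (hc.trans ht)]
    exact div_le_div_of_nonneg_left (Real.exp_pos _).le hc ht.le

theorem expInt_nonneg {x : ℝ} (hx : 0 ≤ x) : 0 ≤ expInt x :=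
  setIntegral_nonneg measurableSet_Ioi fun _ (ht : x < _) =>
    div_nonneg (Real.exp_pos _).le (hx.trans ht.le)

theorem expInt_le {x : ℝ} (hx : 0 < x) : expInt x ≤ Real.exp (-x) / x := by
  refine (setIntegral_mono_on (integrableOn_exp_neg_div hx) ((integrableOn_exp_neg_Ioi x).div_const x)
    measurableSet_Ioi fun t (ht : x < t) =>
      div_le_div_of_nonneg_left (Real.exp_pos _).le hx ht.le).trans ?_
  rw [integral_div, integral_exp_neg_Ioi]

theorem hasDerivAt_expInt {x : ℝ} (hx : 0 < x) :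
    HasDerivAt expInt (-(Real.exp (-x) / x)) x := by
  have hc : 0 < x / 2 := by positivity
  have hcont : ContinuousOn (fun t : ℝ => Real.exp (-t) / t) (Ioi 0) :=
    (by fun_prop : Continuous fun t : ℝ => Real.exp (-t)).continuousOn.div continuousOn_id
      fun t (ht : 0 < t) => ht.ne'
  have h1 : HasDerivAt (fun y => ∫ t in (x / 2)..y, Real.exp (-t) / t) (Real.exp (-x) / x) x :=
    intervalIntegral.integral_hasDerivAt_right
      ((hcont.mono (uIcc_subset_Ioi_aux hc hx)).intervalIntegrable)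
      (hcont.stronglyMeasurableAtFilter isOpen_Ioi x hx) (hcont.continuousAt (Ioi_mem_nhds hx))
  refine (h1.const_sub (∫ t in Ioi (x / 2), Real.exp (-t) / t)).congr_of_eventuallyEq ?_
  filter_upwards [Ioi_mem_nhds hx] with y (hy : 0 < y)
  rw [expInt, ← intervalIntegral.integral_interval_add_Ioi (integrableOn_exp_neg_div hc)
    (integrableOn_exp_neg_div hy)]
  ring
where
  uIcc_subset_Ioi_aux {a b : ℝ} (ha : 0 < a) (hb : 0 < b) : uIcc a b ⊆ Ioi 0 := fun t ht =>
    lt_of_lt_of_le (lt_min ha hb) ht.1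

/-! ### The terms -/

/-- `e(n z / h)`. -/
def qTerm (h n : ℕ) (z : ℂ) : ℂ := Complex.exp (2 * π * I * n * z / h)

/-- `E₁(4π n v / h) e(-n z / h)`. -/
def eTerm (h n : ℕ) (z : ℂ) : ℂ :=
  (expInt (4 * π * n / h * z.im) : ℝ) * Complex.exp (-(2 * π * I * n * z / h))

/-- The derivative of `eTerm` over `ℝ`. -/
def eTermDeriv (h n : ℕ) (z : ℂ) : ℂ →L[ℝ] ℂ :=
  (Complex.imCLM).smulRight
      ((-(Real.exp (-(4 * π * n / h * z.im)) / z.im) : ℝ) *
        Complex.exp (-(2 * π * I * n * z / h))) +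
    ((expInt (4 * π * n / h * z.im) : ℝ) * Complex.exp (-(2 * π * I * n * z / h)) *
      -(2 * π * I * n / h)) • (1 : ℂ →L[ℝ] ℂ)

/-- A coefficient sequence of polynomial growth vanishing at `0`. -/
def IsCoeff (c : ℕ → ℂ) : Prop :=
  c 0 = 0 ∧ ∃ (C : ℝ) (K : ℕ), ∀ n : ℕ, ‖c n‖ ≤ C * ((n : ℝ) + 1) ^ K

/-- The holomorphic part. -/
def qSeries (h : ℕ) (c : ℕ → ℂ) (z : ℂ) : ℂ := ∑' n, c n * qTerm h n z

/-- The nonholomorphic part. -/
def eSeries (h : ℕ) (c : ℕ → ℂ) (z : ℂ) : ℂ := ∑' n, c n * eTerm h n z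

variable {h : ℕ} [NeZero h] {c : ℕ → ℂ}

/-- `exp (-2π n v / h)`. -/
def decay (h : ℕ) (v : ℝ) (n : ℕ) : ℝ := Real.exp (-(2 * π * v / h * n))

theorem decay_pos (v : ℝ) (n : ℕ) : 0 < decay h v n := Real.exp_pos _

theorem decay_anti {v w : ℝ} (hvw : v ≤ w) (n : ℕ) : decay h w n ≤ decay h v n := by
  refine Real.exp_le_exp.2 (neg_le_neg ?_)
  gcongr

omit [NeZero h] in
theorem decay_add (v w : ℝ) (n : ℕ) : decay h (v + w) n = decay h v n * decay h w n := by
  rw [decay, decay, decay, ← Real.exp_add]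
  ring_nf

theorem IsCoeff.summable (hc : IsCoeff c) {v : ℝ} (hv : 0 < v) :
    Summable fun n => ‖c n‖ * decay h v n := by
  obtain ⟨-, C, K, hC⟩ := hc
  have hr : 0 < 2 * π * v / h := by
    have := (Nat.cast_pos.2 (NeZero.pos h) : (0 : ℝ) < h)
    positivity
  have hs : Summable fun n : ℕ => ((n : ℝ) + 1) ^ K * decay h v n := by
    have h2 := (summable_nat_add_iff 1).2 (Real.summable_pow_mul_exp_neg_nat_mul K hr)
    refine (h2.mul_left (Real.exp (2 * π * v / h))).congr fun n => ?_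
    rw [decay, mul_left_comm, ← Real.exp_add]
    push_cast
    ring_nf
  refine .of_nonneg_of_le (fun n => by have := decay_pos (h := h) v n; positivity) (fun n => ?_)
    (hs.mul_left C)
  rw [← mul_assoc]
  exact mul_le_mul_of_nonneg_right (hC n) (decay_pos _ _).le

omit [NeZero h] in
theorem norm_qTerm (n : ℕ) (z : ℂ) : ‖qTerm h n z‖ = decay h z.im n := by
  rw [qTerm, decay, Complex.norm_exp]
  congr 1
  simp [Complex.div_natCast_re, Complex.mul_re, Complex.mul_im]
  ring

omit [NeZero h] in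
theorem norm_exp_neg (n : ℕ) (z : ℂ) :
    ‖Complex.exp (-(2 * π * I * n * z / h))‖ = Real.exp (2 * π * z.im / h * n) := by
  rw [Complex.norm_exp]
  congr 1
  simp [Complex.div_natCast_re, Complex.mul_re, Complex.mul_im]
  ring

theorem norm_eTerm_le {n : ℕ} (hn : n ≠ 0) {z : ℂ} (hz : 0 < z.im) :
    ‖eTerm h n z‖ ≤ (h : ℝ) / (4 * π * n * z.im) * decay h z.im n := by
  have hh : (0 : ℝ) < h := Nat.cast_pos.2 (NeZero.pos h)
  have hn' : (0 : ℝ) < n := Nat.cast_pos.2 (Nat.pos_of_ne_zero hn)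
  have ha : 0 < 4 * π * n / h * z.im := by positivity
  rw [eTerm, norm_mul, norm_exp_neg, Complex.norm_real, Real.norm_eq_abs,
    abs_of_nonneg (expInt_nonneg ha.le)]
  refine (mul_le_mul_of_nonneg_right (expInt_le ha) (Real.exp_pos _).le).trans_eq ?_
  rw [div_mul_eq_mul_div, ← Real.exp_add, decay]
  field_simp
  ring_nf

theorem norm_mul_eTerm_le (hc : IsCoeff c) {v₀ : ℝ} (hv₀ : 0 < v₀) (n : ℕ) {z : ℂ}
    (hz : v₀ ≤ z.im) : ‖c n * eTerm h n z‖ ≤ (h : ℝ) / v₀ * (‖c n‖ * decay h z.im n) := by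
  rcases eq_or_ne n 0 with rfl | hn
  · simp [hc.1]
  have hh : (0 : ℝ) < h := Nat.cast_pos.2 (NeZero.pos h)
  have hn' : (1 : ℝ) ≤ n := Nat.one_le_cast.2 (Nat.one_le_iff_ne_zero.2 hn)
  rw [norm_mul, mul_left_comm ((h : ℝ) / v₀)]
  refine mul_le_mul_of_nonneg_left ?_ (norm_nonneg _)
  refine (norm_eTerm_le hn (hv₀.trans_le hz)).trans
    (mul_le_mul_of_nonneg_right ?_ (decay_pos _ _).le)
  refine div_le_div_of_nonneg_left hh.le hv₀ ?_
  nlinarith [Real.pi_gt_three, mul_le_mul hn' hz hv₀.le (by positivity)]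

omit [NeZero h] in
theorem hasFDerivAt_eTerm {n : ℕ} (hn : n ≠ 0) [NeZero h] {z : ℂ} (hz : 0 < z.im) :
    HasFDerivAt (eTerm h n) (eTermDeriv h n z) z := by
  have hh : (0 : ℝ) < h := Nat.cast_pos.2 (NeZero.pos h)
  have hn' : (0 : ℝ) < n := Nat.cast_pos.2 (Nat.pos_of_ne_zero hn)
  have ha : 0 < 4 * π * n / h := by positivity
  have h1 := ((hasDerivAt_expInt (mul_pos ha hz)).comp_hasFDerivAt z
    ((Complex.imCLM.hasFDerivAt (x := z)).const_mul (4 * π * n / h)))
  have h2 := Complex.ofRealCLM.hasFDerivAt.comp z h1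
  have h3 : HasDerivAt (fun w : ℂ => Complex.exp (-(2 * π * I * n * w / h)))
      (Complex.exp (-(2 * π * I * n * z / h)) * -(2 * π * I * n / h)) z := by
    refine HasDerivAt.cexp ?_
    simpa using (((hasDerivAt_id z).const_mul (2 * π * I * n)).div_const (h : ℂ)).fun_neg
  refine (h2.mul (h3.hasFDerivAt.restrictScalars ℝ)).congr_fderiv ?_
  refine ContinuousLinearMap.ext fun u => ?_
  simp only [eTermDeriv, Function.comp_apply, add_apply,
    smul_apply, ContinuousLinearMap.smulRight_apply,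
    ContinuousLinearMap.coe_restrictScalars', ContinuousLinearMap.toSpanSingleton_apply,
    ContinuousLinearMap.comp_apply, Complex.ofRealCLM_apply, Complex.imCLM_apply,
    one_apply_eq_self, smul_eq_mul, Complex.real_smul]
  have hz' : (z.im : ℂ) ≠ 0 := Complex.ofReal_ne_zero.2 hz.ne'
  have hn'' : (n : ℂ) ≠ 0 := Nat.cast_ne_zero.2 hn
  have hh' : (h : ℂ) ≠ 0 := Nat.cast_ne_zero.2 (NeZero.ne h)
  push_cast
  field_simp
  ring

/-- The derivative of a term of `eSeries`. -/
theorem hasFDerivAt_mul_eTerm (hc : IsCoeff c) (n : ℕ) {z : ℂ} (hz : 0 < z.im) :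
    HasFDerivAt (fun w => c n * eTerm h n w) (c n • eTermDeriv h n z) z := by
  rcases eq_or_ne n 0 with rfl | hn
  · refine ((hasFDerivAt_const (0 : ℂ) z).congr_fderiv (ContinuousLinearMap.ext fun u => ?_)
      ).congr_of_eventuallyEq (Eventually.of_forall fun w => ?_)
    · rw [hc.1]; simp
    · simp [hc.1]
  · exact (hasFDerivAt_eTerm hn hz).const_mul (c n)

theorem norm_smul_eTermDeriv_le (hc : IsCoeff c) {v₀ : ℝ} (hv₀ : 0 < v₀) (n : ℕ) {z : ℂ}
    (hz : v₀ ≤ z.im) : ‖c n • eTermDeriv h n z‖ ≤ 2 / v₀ * (‖c n‖ * decay h v₀ n) := by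
  rcases eq_or_ne n 0 with rfl | hn
  · have e : c 0 • eTermDeriv h 0 z = 0 := by rw [hc.1]; exact ContinuousLinearMap.ext fun u => by simp
    rw [e, norm_zero, hc.1]
    simp
  have hz' := hv₀.trans_le hz
  have hh : (0 : ℝ) < h := Nat.cast_pos.2 (NeZero.pos h)
  have hn' : (0 : ℝ) < n := Nat.cast_pos.2 (Nat.pos_of_ne_zero hn)
  rw [norm_smul, mul_left_comm (2 / v₀)]
  refine mul_le_mul_of_nonneg_left ?_ (norm_nonneg _)
  refine ((eTermDeriv h n z).opNorm_le_bound (mul_nonneg (by positivity) (decay_pos _ _).le) fun u => ?_).trans_eq rfl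
  simp only [eTermDeriv, add_apply, ContinuousLinearMap.smulRight_apply,
    smul_apply, one_apply_eq_self, Complex.imCLM_apply]
  refine (norm_add_le _ _).trans ?_
  rw [norm_smul, norm_smul, Real.norm_eq_abs]
  have e1 : ‖((-(Real.exp (-(4 * π * n / h * z.im)) / z.im) : ℝ) : ℂ) *
      Complex.exp (-(2 * π * I * n * z / h))‖ = decay h z.im n / z.im := by
    rw [norm_mul, norm_exp_neg, Complex.norm_real, Real.norm_eq_abs, abs_neg, abs_div,
      abs_of_pos (Real.exp_pos _), abs_of_pos hz', div_mul_eq_mul_div, ← Real.exp_add, decay]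
    ring_nf
  have e2 : ‖((expInt (4 * π * n / h * z.im) : ℝ) : ℂ) *
      Complex.exp (-(2 * π * I * n * z / h)) * -(2 * π * I * n / h)‖ ≤ decay h z.im n / z.im := by
    rw [norm_mul]
    refine (mul_le_mul_of_nonneg_right (norm_eTerm_le hn hz') (norm_nonneg _)).trans ?_
    rw [show ‖-(2 * (π : ℂ) * I * n / h)‖ = 2 * π * n / h by
      simp [abs_of_pos Real.pi_pos]]
    have : 0 < decay h z.im n := decay_pos _ _
    field_simp
    linarith
  have hd : decay h z.im n / z.im ≤ decay h v₀ n / v₀ :=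
    div_le_div₀ (decay_pos _ _).le (decay_anti hz n) hv₀ hz
  calc _ ≤ ‖u‖ * (decay h v₀ n / v₀) + (decay h v₀ n / v₀) * ‖u‖ := by
        refine add_le_add ?_ ?_
        · rw [e1]
          exact mul_le_mul (Complex.abs_im_le_norm u) hd
            (div_nonneg (decay_pos _ _).le hz'.le) (norm_nonneg _)
        · exact mul_le_mul_of_nonneg_right (e2.trans hd) (norm_nonneg _)
    _ = _ := by ring

/-! ### The series -/

theorem differentiableOn_qSeries (hc : IsCoeff c) {v₀ : ℝ} (hv₀ : 0 < v₀) :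
    DifferentiableOn ℂ (qSeries h c) {z | v₀ < z.im} := by
  refine differentiableOn_tsum_of_summable_norm (hc.summable (h := h) hv₀) (fun n => ?_)
    (isOpen_lt continuous_const Complex.continuous_im) fun n z (hz : v₀ < z.im) => ?_
  · unfold qTerm; fun_prop
  · rw [norm_mul, norm_qTerm]
    exact mul_le_mul_of_nonneg_left (decay_anti hz.le n) (norm_nonneg _)

theorem differentiableAt_qSeries (hc : IsCoeff c) {z : ℂ} (hz : 0 < z.im) :
    DifferentiableAt ℂ (qSeries h c) z :=
  (differentiableOn_qSeries hc (half_pos hz)).differentiableAt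
    ((isOpen_lt continuous_const Complex.continuous_im).mem_nhds (half_lt_self hz))

theorem summable_eTerm (hc : IsCoeff c) {z : ℂ} (hz : 0 < z.im) :
    Summable fun n => c n * eTerm h n z :=
  .of_norm_bounded ((hc.summable (h := h) hz).mul_left _) fun n => norm_mul_eTerm_le hc hz n le_rfl

theorem hasFDerivAt_eSeries (hc : IsCoeff c) {z : ℂ} (hz : 0 < z.im) :
    HasFDerivAt (eSeries h c) (∑' n, c n • eTermDeriv h n z) z := by
  refine hasFDerivAt_tsum_of_isPreconnected (s := {w : ℂ | z.im / 2 < w.im})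
    ((hc.summable (h := h) (half_pos hz)).mul_left (2 / (z.im / 2)))
    (isOpen_lt continuous_const Complex.continuous_im)
    ((convex_halfSpace_im_gt _).isPreconnected)
    (fun n w hw => hasFDerivAt_mul_eTerm hc n ((half_pos hz).trans hw))
    (fun n w (hw : z.im / 2 < w.im) => norm_smul_eTermDeriv_le hc (half_pos hz) n hw.le)
    (half_lt_self hz) (summable_eTerm hc hz) (half_lt_self hz)

theorem summable_eTermDeriv (hc : IsCoeff c) {z : ℂ} (hz : 0 < z.im) :
    Summable fun n => c n • eTermDeriv h n z :=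
  .of_norm_bounded ((hc.summable (h := h) hz).mul_left _)
    fun n => norm_smul_eTermDeriv_le hc hz n le_rfl

theorem tendsto_qSeries (hc : IsCoeff c) {ε : ℝ} (hε : 0 < ε) :
    ∃ A : ℝ, ∀ z : ℂ, A ≤ z.im → ‖qSeries h c z‖ ≤ ε ∧ ‖eSeries h c z‖ ≤ ε := by
  have hh : (0 : ℝ) < h := Nat.cast_pos.2 (NeZero.pos h)
  set S := ∑' n, ‖c n‖ * decay h 1 n with hS
  have hr : Tendsto (fun v : ℝ => ((h : ℝ) + 1) * (S * decay h (v - 1) 1)) atTop (𝓝 0) := by
    have : Tendsto (fun v : ℝ => decay h (v - 1) 1) atTop (𝓝 0) := by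
      refine Real.tendsto_exp_comp_nhds_zero.2 (tendsto_neg_atTop_atBot.comp ?_)
      simp only [Nat.cast_one, mul_one]
      exact Tendsto.atTop_div_const hh
        ((tendsto_atTop_add_const_right _ _ tendsto_id).const_mul_atTop (by positivity))
    simpa using (this.const_mul S).const_mul ((h : ℝ) + 1)
  obtain ⟨A, hA⟩ := eventually_atTop.1
    ((Metric.tendsto_nhds.1 hr ε hε).and (eventually_ge_atTop 1))
  refine ⟨A, fun z hz => ?_⟩
  obtain ⟨hAε, h1⟩ := hA z.im hz
  rw [Real.dist_eq, sub_zero] at hAε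
  have hb : ∀ n, ‖c n‖ * decay h z.im n ≤ ‖c n‖ * decay h 1 n * decay h (z.im - 1) 1 := fun n => by
    rcases eq_or_ne n 0 with rfl | hn
    · simp [hc.1]
    rw [mul_assoc, show z.im = 1 + (z.im - 1) by ring, decay_add, add_sub_cancel_left]
    refine mul_le_mul_of_nonneg_left (mul_le_mul_of_nonneg_left ?_ (decay_pos _ _).le)
      (norm_nonneg _)
    refine Real.exp_le_exp.2 (neg_le_neg ?_)
    have h0 : (0 : ℝ) ≤ z.im - 1 := by linarith
    have : (1 : ℝ) ≤ n := Nat.one_le_cast.2 (Nat.one_le_iff_ne_zero.2 hn)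
    push_cast
    gcongr
  have hsum := (hc.summable (h := h) one_pos).mul_right (decay h (z.im - 1) 1)
  have hS0 : 0 ≤ S * decay h (z.im - 1) 1 :=
    mul_nonneg (tsum_nonneg fun n => by have := decay_pos (h := h) 1 n; positivity)
      (decay_pos _ _).le
  have htot : ∑' n, ‖c n‖ * decay h 1 n * decay h (z.im - 1) 1 = S * decay h (z.im - 1) 1 := by
    rw [tsum_mul_right]
  constructor
  · refine (tsum_of_norm_bounded hsum.hasSum fun n => ?_).trans ?_
    · rw [norm_mul, norm_qTerm]; exact hb n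
    · rw [htot]; nlinarith [abs_le.1 hAε.le]
  · refine (tsum_of_norm_bounded (hsum.mul_left (h : ℝ)).hasSum fun n => ?_).trans ?_
    · refine (norm_mul_eTerm_le hc one_pos n h1).trans ?_
      rw [div_one]
      exact mul_le_mul_of_nonneg_left (hb n) hh.le
    · rw [tsum_mul_left, htot]; nlinarith [abs_le.1 hAε.le]

end Fermat.Agent.LT.WeightOne
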