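import Fermat.Agent.LT.WeightOne.Main

/-!
# From `Γ₁(3) ∩ Γ(M)` to `Γ₁(3 M²)`

`F ↦ G = F ∣ diag(M, 1)`, that is `G τ = F (M τ)`: invariance, harmonic expansions at all cusps and
Hecke eigenvalues are transported, so the level of `G` keeps exactly the power of `3` of `3 M²`.
-/

set_option autoImplicit false

noncomputable section

open CongruenceSubgroup UpperHalfPlane ModularFormClass Matrix.SpecialLinearGroup
open scoped MatrixGroups ModularForm ComplexConjugate Real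

namespace Fermat.Agent.LT.WeightOne

variable {M : ℕ} [NeZero M]

/-- Membership in `Γ₁(3) ∩ Γ(M)`. -/
structure InMixed (M : ℕ) (γ : SL(2, ℤ)) : Prop where
  b : (M : ℤ) ∣ γ 0 1
  c : (M : ℤ) ∣ γ 1 0
  a : (M : ℤ) ∣ γ 0 0 - 1
  d : (M : ℤ) ∣ γ 1 1 - 1
  c3 : (3 : ℤ) ∣ γ 1 0
  d3 : (3 : ℤ) ∣ γ 1 1 - 1

/-- `G τ = F (M τ)`. -/
def rescale (M : ℕ) (F : ℍ → ℂ) : ℍ → ℂ := F ∣[(1 : ℤ)] ModularForm.heckeDiagMatrix M

omit [NeZero M] in
theorem rescale_eq_zero {F : ℍ → ℂ} (h : rescale M F = 0) : F = 0 := by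
  have h' := congrArg (fun G => G ∣[(1 : ℤ)] (ModularForm.heckeDiagMatrix M)⁻¹) h
  simpa [rescale, ← SlashAction.slash_mul, SlashAction.zero_slash] using h'

omit [NeZero M] in
theorem val_mapGL_apply (γ : SL(2, ℤ)) (i j : Fin 2) :
    ((mapGL ℝ γ : GL (Fin 2) ℝ) : Matrix (Fin 2) (Fin 2) ℝ) i j = ((γ i j : ℤ) : ℝ) := by
  rw [mapGL_coe_matrix]; simp

/-- Conjugation by `diag(M, 1)` of a matrix with `M ∣ c`. -/
theorem exists_conj_diag (γ : SL(2, ℤ)) (hc : (M : ℤ) ∣ γ 1 0) :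
    ∃ γ' : SL(2, ℤ), γ' 0 0 = γ 0 0 ∧ γ' 0 1 = M * γ 0 1 ∧ γ' 1 0 = γ 1 0 / M ∧ γ' 1 1 = γ 1 1 ∧
      ModularForm.heckeDiagMatrix M * mapGL ℝ γ = mapGL ℝ γ' * ModularForm.heckeDiagMatrix M := by
  obtain ⟨e, he⟩ := hc
  have hM : (M : ℤ) ≠ 0 := Int.natCast_ne_zero.2 (NeZero.ne M)
  have hdet : (!![γ 0 0, (M : ℤ) * γ 0 1; e, γ 1 1]).det = 1 := by
    have := γ.det_coe
    rw [Matrix.det_fin_two] at this
    rw [Matrix.det_fin_two_of]
    linear_combination this + γ 0 1 * he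
  obtain ⟨γ', e00, e01, e10, e11⟩ : ∃ γ' : SL(2, ℤ), γ' 0 0 = γ 0 0 ∧ γ' 0 1 = M * γ 0 1 ∧
      γ' 1 0 = e ∧ γ' 1 1 = γ 1 1 := ⟨⟨_, hdet⟩, rfl, rfl, rfl, rfl⟩
  refine ⟨γ', e00, e01, by rw [e10, he, Int.mul_ediv_cancel_left _ hM], e11, ?_⟩
  refine Units.ext ?_
  simp only [Units.val_mul, ModularForm.val_heckeDiagMatrix (NeZero.ne M)]
  ext i j
  simp only [Matrix.mul_apply, Fin.sum_univ_two, val_mapGL_apply]
  fin_cases i <;> fin_cases j <;> simp [e00, e01, e10, e11, he, mul_comm]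

/-- The level of the rescaled form. -/
theorem isInv_rescale {F : ℍ → ℂ} (hinv : ∀ γ, InMixed M γ → F ∣[(1 : ℤ)] γ = F) :
    IsInv 1 (3 * M ^ 2) (rescale M F) := by
  intro γ hγ
  obtain ⟨h00, h11, h10⟩ := (Gamma1_mem _ _).1 hγ
  replace h00 := (ZMod.intCast_eq_intCast_iff_dvd_sub 1 (γ 0 0) (3 * M ^ 2)).1
    (by rw [Int.cast_one]; exact h00.symm)
  replace h11 := (ZMod.intCast_eq_intCast_iff_dvd_sub 1 (γ 1 1) (3 * M ^ 2)).1
    (by rw [Int.cast_one]; exact h11.symm)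
  rw [ZMod.intCast_zmod_eq_zero_iff_dvd] at h10
  push_cast at h00 h11 h10
  have hM : (M : ℤ) ∣ 3 * (M : ℤ) ^ 2 := ⟨3 * M, by ring⟩
  obtain ⟨γ', e00, e01, e10, e11, hγ'⟩ := exists_conj_diag γ (hM.trans h10)
  have hmem : InMixed M γ' := by
    have hc : 3 * (M : ℤ) ∣ γ' 1 0 := by
      obtain ⟨e, he⟩ := h10
      refine ⟨e, ?_⟩
      rw [e10, he, show 3 * (M : ℤ) ^ 2 * e = M * (3 * M * e) by ring,
        Int.mul_ediv_cancel_left _ (Int.natCast_ne_zero.2 (NeZero.ne M))]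
    exact ⟨e01 ▸ dvd_mul_right _ _, (dvd_mul_left _ _).trans hc, e00 ▸ hM.trans h00,
      e11 ▸ hM.trans h11, (dvd_mul_right _ _).trans hc, e11 ▸ (dvd_mul_right _ _).trans h11⟩
  rw [rescale, sl_slash, ← SlashAction.slash_mul, hγ', SlashAction.slash_mul, ← sl_slash,
    hinv γ' hmem]

/-! ### Expansions -/

/-- An integral matrix of positive determinant is an `SL₂(ℤ)` matrix times an upper triangular one
with positive diagonal. -/
theorem exists_upper_decomp (B : Matrix (Fin 2) (Fin 2) ℤ) (hB : 0 < B.det) :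
    ∃ (A : SL(2, ℤ)) (α β δ : ℤ), 0 < α ∧ 0 < δ ∧
      B = (A : Matrix (Fin 2) (Fin 2) ℤ) * !![α, β; 0, δ] := by
  rw [Matrix.det_fin_two] at hB
  set g : ℕ := Int.gcd (B 0 0) (B 1 0)
  have hg : (0 : ℤ) < g := by
    refine Int.natCast_pos.2 (Nat.pos_of_ne_zero fun h => ?_)
    obtain ⟨h0, h1⟩ := Int.gcd_eq_zero_iff.1 h
    rw [h0, h1] at hB; simp at hB
  obtain ⟨u, hu⟩ : (g : ℤ) ∣ B 0 0 := Int.gcd_dvd_left _ _
  obtain ⟨w, hw⟩ : (g : ℤ) ∣ B 1 0 := Int.gcd_dvd_right _ _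
  set x := Int.gcdA (B 0 0) (B 1 0)
  set y := Int.gcdB (B 0 0) (B 1 0)
  have hb : (g : ℤ) = B 0 0 * x + B 1 0 * y := Int.gcd_eq_gcd_ab _ _
  have hxy : u * x + w * y = 1 := by
    refine mul_left_cancel₀ hg.ne' ?_
    rw [mul_one]
    linear_combination -hb + (-x) * hu + (-y) * hw
  refine ⟨⟨!![u, -y; w, x], by rw [Matrix.det_fin_two_of]; linarith⟩, g,
    x * B 0 1 + y * B 1 1, u * B 1 1 - w * B 0 1, hg, ?_, ?_⟩
  · rw [hu, hw] at hB
    nlinarith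
  · ext i j
    fin_cases i <;> fin_cases j <;> simp [Matrix.mul_apply, Fin.sum_univ_two]
    · rw [hu]; ring
    · linear_combination (-(B 0 1)) * hxy
    · rw [hw]; ring
    · linear_combination (-(B 1 1)) * hxy

/-- Coefficients moved to the multiples of `m`. -/
def spread (m : ℕ) (c : ℕ → ℂ) (n : ℕ) : ℂ := if m ∣ n then c (n / m) else 0

theorem IsCoeff.spread {m : ℕ} {c : ℕ → ℂ} (hc : IsCoeff c) (e : ℕ → ℂ) {E : ℝ}
    (he : ∀ n, ‖e n‖ ≤ E) : IsCoeff (WeightOne.spread m fun n => e n * c n) := by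
  obtain ⟨h0, C, K, hC⟩ := hc
  have hC0 : 0 ≤ C := by simpa [h0] using hC 0
  have hE : 0 ≤ E := (norm_nonneg _).trans (he 0)
  refine ⟨by simp [WeightOne.spread, h0], E * C, K, fun n => ?_⟩
  simp only [WeightOne.spread]
  split_ifs with h
  · rw [norm_mul, mul_assoc]
    refine mul_le_mul (he _) ((hC _).trans ?_) (norm_nonneg _) hE
    gcongr
    exact_mod_cast Nat.div_le_self n m
  · rw [norm_zero]
    positivity

theorem tsum_spread {m : ℕ} (hm : 0 < m) (c : ℕ → ℂ) (T : ℕ → ℂ) :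
    ∑' n, spread m c n * T n = ∑' n, c n * T (m * n) := by
  rw [← Function.Injective.tsum_eq (g := fun n => m * n)
    (fun a b hab => Nat.eq_of_mul_eq_mul_left hm hab)]
  · exact tsum_congr fun n => by simp [spread, Nat.mul_div_cancel_left _ hm]
  · intro n hn
    by_contra hr
    refine hn ?_
    simp only [spread]
    rw [if_neg (fun ⟨t, ht⟩ => hr ⟨t, ht.symm⟩), zero_mul]

/-- The phase of a translation. -/
def phase (h : ℕ) (s : ℝ) (n : ℕ) : ℂ := Complex.exp (2 * π * Complex.I * s * n / h)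

theorem norm_phase (h : ℕ) (s : ℝ) (n : ℕ) : ‖phase h s n‖ = 1 := by
  rw [phase, show 2 * (π : ℂ) * Complex.I * s * n / h = ((2 * π * s * n / h : ℝ) : ℂ) * Complex.I by
    push_cast; ring, Complex.norm_exp_ofReal_mul_I]

variable {h : ℕ} [NeZero h]

omit [NeZero M] in
theorem hasHarmExp_slash_upper {F : ℍ → ℂ} (hF : HasHarmExp h F) (g : GL (Fin 2) ℝ) {α β δ : ℤ}
    (hα : 0 < α) (hδ : 0 < δ)
    (hg : (g : Matrix (Fin 2) (Fin 2) ℝ) = !![(α : ℝ), (β : ℝ); 0, (δ : ℝ)])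
    (hM : (M : ℤ) = α * δ) : HasHarmExp (h * M) (F ∣[(1 : ℤ)] g) := by
  obtain ⟨cp, cm, hp, hm, rfl⟩ := hF
  obtain ⟨a, rfl⟩ := Int.eq_ofNat_of_zero_le hα.le
  obtain ⟨d, rfl⟩ := Int.eq_ofNat_of_zero_le hδ.le
  have ha : 0 < a := Int.natCast_pos.1 hα
  have hd : 0 < d := Int.natCast_pos.1 hδ
  have hMad : M = a * d := by exact_mod_cast hM
  set s : ℝ := (β : ℝ) / d
  have hm2 : 0 < a ^ 2 := by positivity
  have hb : ∀ (s' : ℝ) (n : ℕ), ‖((d : ℂ))⁻¹ * phase h s' n‖ ≤ ((d : ℝ))⁻¹ := fun s' n => by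
    rw [norm_mul, norm_phase, mul_one, norm_inv, Complex.norm_natCast]
  refine ⟨spread (a ^ 2) fun n => ((d : ℂ))⁻¹ * phase h s n * cp n,
    spread (a ^ 2) fun n => ((d : ℂ))⁻¹ * phase h (-s) n * cm n,
    hp.spread (m := a ^ 2) _ (hb s), hm.spread (m := a ^ 2) _ (hb (-s)), funext fun τ => ?_⟩
  have hdet : 0 < g.det.val := by
    rw [Matrix.GeneralLinearGroup.val_det_apply, hg, Matrix.det_fin_two_of]
    push_cast
    simp [ha, hd]
  have hden : denom g τ = (d : ℂ) := by simp [denom, hg]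
  have hz : ((g • τ : ℍ) : ℂ) = ((a : ℂ) * τ + (β : ℂ)) / (d : ℂ) := by
    rw [coe_smul_of_det_pos hdet, hden]
    simp [num, hg]
  have hdC : (d : ℂ) ≠ 0 := Nat.cast_ne_zero.2 hd.ne'
  have haC : (a : ℂ) ≠ 0 := Nat.cast_ne_zero.2 ha.ne'
  have hhC : (h : ℂ) ≠ 0 := Nat.cast_ne_zero.2 (NeZero.ne h)
  have hq : ∀ n, qTerm h n (((a : ℂ) * τ + (β : ℂ)) / (d : ℂ)) =
      phase h s n * qTerm (h * M) (a ^ 2 * n) τ := fun n => by
    rw [qTerm, qTerm, phase, ← Complex.exp_add]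
    congr 1
    simp only [hMad, s]
    push_cast
    field_simp
    ring
  have he : ∀ n, eTerm h n (((a : ℂ) * τ + (β : ℂ)) / (d : ℂ)) =
      phase h (-s) n * eTerm (h * M) (a ^ 2 * n) τ := fun n => by
    have him : (((a : ℂ) * τ + (β : ℂ)) / (d : ℂ)).im = (a : ℝ) * τ.im / d := by
      simp [Complex.div_natCast_im]
    rw [eTerm, eTerm, phase, mul_left_comm, ← Complex.exp_add, him]
    congr 1
    · congr 2
      simp only [hMad, coe_im]
      push_cast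
      field_simp
    · congr 1
      simp only [hMad, s]
      push_cast
      field_simp
      ring
  rw [ModularForm.slash_apply, UpperHalfPlane.σ, if_pos hdet, hden]
  simp only [ContinuousAlgEquiv.refl_apply, sub_self, zpow_zero, mul_one, zpow_neg_one, harmSeries,
    qSeries, eSeries, hz]
  rw [tsum_spread hm2, tsum_spread hm2, add_mul, ← tsum_mul_right, ← tsum_mul_right]
  congr 1 <;> refine tsum_congr fun n => ?_
  · rw [hq]; ring
  · rw [he]; ring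

/-- Expansions at every cusp of the rescaled form. -/
theorem hasHarmExp_rescale {F : ℍ → ℂ}
    (hexp : ∀ A : SL(2, ℤ), HasHarmExp h (F ∣[(1 : ℤ)] A)) (A : SL(2, ℤ)) :
    HasHarmExp (h * M) (rescale M F ∣[(1 : ℤ)] A) := by
  set B : Matrix (Fin 2) (Fin 2) ℤ := !![(M : ℤ), 0; 0, 1] * (A : Matrix (Fin 2) (Fin 2) ℤ) with hB
  have hBdet : B.det = M := by
    rw [hB, Matrix.det_mul, Matrix.SpecialLinearGroup.det_coe, Matrix.det_fin_two_of]; ring
  obtain ⟨A', α, β, δ, hα, hδ, e⟩ :=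
    exists_upper_decomp B (hBdet ▸ Int.natCast_pos.2 (NeZero.pos M))
  have hM : (M : ℤ) = α * δ := by
    rw [← hBdet, e, Matrix.det_mul, Matrix.SpecialLinearGroup.det_coe, one_mul,
      Matrix.det_fin_two_of]
    ring
  have hU : ((α : ℝ) * (δ : ℝ)) ≠ 0 := by
    have h1 : (0 : ℝ) < α := Int.cast_pos.2 hα
    have h2 : (0 : ℝ) < δ := Int.cast_pos.2 hδ
    positivity
  set U := ModularForm.upperTriangularGL (α : ℝ) (β : ℝ) (δ : ℝ) hU
  have heq : ModularForm.heckeDiagMatrix M * mapGL ℝ A = mapGL ℝ A' * U := by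
    refine Units.ext ?_
    have e' := congrArg (fun X => X.map (Int.castRingHom ℝ)) (hB.symm.trans e)
    simp only [Matrix.map_mul] at e'
    simp only [U, Units.val_mul, mapGL_coe_matrix, ModularForm.val_heckeDiagMatrix (NeZero.ne M),
      ModularForm.val_upperTriangularGL]
    ext i j
    have := congrFun (congrFun e' i) j
    fin_cases i <;> fin_cases j <;> simpa [Matrix.mul_apply, Fin.sum_univ_two] using this
  rw [rescale, sl_slash, ← SlashAction.slash_mul, heq, SlashAction.slash_mul, ← sl_slash]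
  exact hasHarmExp_slash_upper (hexp A') U hα hδ (ModularForm.val_upperTriangularGL _ _ _ _) hM

/-! ### Hecke operators -/

/-- The upper representative `[[1, M j], [0, p]]`. -/
def upperM (M p : ℕ) [Fact p.Prime] (j : ℕ) : GL (Fin 2) ℝ :=
  ModularForm.upperTriangularGL 1 ((M : ℝ) * j) p
    (by rw [one_mul]; exact_mod_cast (Fact.out : p.Prime).ne_zero)

/-- `T_p` of the rescaled form. `γ` is any element of `Γ₀(3) ∩ (diagonal mod M)` with lower right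
entry `≡ p (mod 3 M)`. -/
theorem heckeOp_rescale {F : ℍ → ℂ} (hinv : ∀ γ, InMixed M γ → F ∣[(1 : ℤ)] γ = F) {p : ℕ}
    [hp : Fact p.Prime] (hpN : ¬ p ∣ 3 * M ^ 2) (γ : SL(2, ℤ)) (hb : (M : ℤ) ∣ γ 0 1)
    (hc : (M : ℤ) ∣ γ 1 0) (hc3 : (3 : ℤ) ∣ γ 1 0) (hd : (3 * M : ℤ) ∣ γ 1 1 - p) :
    heckeOp 1 (3 * M ^ 2) p (rescale M F) = rescale M
      ((∑ j ∈ Finset.range p, F ∣[(1 : ℤ)] upperM M p j) +
        (F ∣[(1 : ℤ)] γ) ∣[(1 : ℤ)] ModularForm.heckeDiagMatrix p) := by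
  classical
  have hcop := coprime_of_not_dvd (N := 3 * M ^ 2) hpN
  rw [heckeOp_eq, diagPart, if_neg hpN, ModularForm.heckeU_def]
  simp only [rescale, SlashAction.add_slash, SlashAction.sum_slash]
  congr 1
  · refine Finset.sum_congr rfl fun j _ => ?_
    rw [← SlashAction.slash_mul, ← SlashAction.slash_mul]
    congr 1
    refine Units.ext ?_
    rw [Units.val_mul, Units.val_mul, upperM, ModularForm.val_upperTriangularGL,
      ModularForm.val_heckeMatrix hp.out.ne_zero, ModularForm.val_heckeDiagMatrix (NeZero.ne M)]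
    ext a b
    fin_cases a <;> fin_cases b <;> simp [Matrix.mul_apply, Fin.sum_univ_two]
  · set L : Gamma0 (3 * M ^ 2) := lowRow (3 * M ^ 2) p
    have h10 := (ZMod.intCast_zmod_eq_zero_iff_dvd _ _).1 (Gamma0_mem.1 L.2)
    push_cast at h10
    have h11 : (L : SL(2, ℤ)) 1 1 = (p : ℤ) := lowRow_one_one hcop
    obtain ⟨L', e00, e01, e10, e11, hL'⟩ :=
      exists_conj_diag (M := M) (L : SL(2, ℤ)) ((Dvd.intro (3 * (M : ℤ)) (by ring) : (M : ℤ) ∣ 3 * (M : ℤ) ^ 2).trans h10)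
    have hc' : 3 * (M : ℤ) ∣ L' 1 0 := by
      obtain ⟨e, he⟩ := h10
      refine ⟨e, ?_⟩
      rw [e10, he, show 3 * (M : ℤ) ^ 2 * e = M * (3 * M * e) by ring,
        Int.mul_ediv_cancel_left _ (Int.natCast_ne_zero.2 (NeZero.ne M))]
    have hb' : (M : ℤ) ∣ L' 0 1 := e01 ▸ dvd_mul_right _ _
    have hdetL := L'.det_coe
    rw [Matrix.det_fin_two] at hdetL
    have hdetγ := γ.det_coe
    rw [Matrix.det_fin_two] at hdetγ
    have hmem : InMixed M (L' * γ⁻¹) := by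
      have hdp : (3 * M : ℤ) ∣ L' 1 1 - γ 1 1 := by
        rw [e11, h11, ← dvd_neg]; simpa using hd
      have hM3 : (M : ℤ) ∣ 3 * M := dvd_mul_left _ _
      have h33 : (3 : ℤ) ∣ 3 * M := dvd_mul_right _ _
      have ent : ∀ i j, (L' * γ⁻¹ : SL(2, ℤ)) i j =
          L' i 0 * (Matrix.adjugate (γ : Matrix (Fin 2) (Fin 2) ℤ)) 0 j +
          L' i 1 * (Matrix.adjugate (γ : Matrix (Fin 2) (Fin 2) ℤ)) 1 j := fun i j => by
        simp [Matrix.SpecialLinearGroup.coe_mul, Matrix.SpecialLinearGroup.coe_inv,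
          Matrix.mul_apply, Fin.sum_univ_two]
      constructor <;> rw [ent] <;> simp only [Matrix.adjugate_fin_two, Matrix.of_apply,
        Matrix.cons_val_zero, Matrix.cons_val_one]
      · exact dvd_add (dvd_mul_of_dvd_right (dvd_neg.2 hb) _) (dvd_mul_of_dvd_left hb' _)
      · exact dvd_add (dvd_mul_of_dvd_left (hM3.trans hc') _) (dvd_mul_of_dvd_right (dvd_neg.2 hc) _)
      · rw [show L' 0 0 * γ 1 1 + L' 0 1 * -γ 1 0 - 1 =
          -(L' 0 0 * (L' 1 1 - γ 1 1)) + L' 0 1 * (L' 1 0 - γ 1 0) by linear_combination hdetL]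
        exact dvd_add (dvd_neg.2 (dvd_mul_of_dvd_right (hM3.trans hdp) _))
          (dvd_mul_of_dvd_left hb' _)
      · rw [show L' 1 0 * -γ 0 1 + L' 1 1 * γ 0 0 - 1 =
          (L' 1 1 - γ 1 1) * γ 0 0 + (γ 1 0 - L' 1 0) * γ 0 1 by linear_combination hdetγ]
        exact dvd_add (dvd_mul_of_dvd_left (hM3.trans hdp) _) (dvd_mul_of_dvd_right hb _)
      · exact dvd_add (dvd_mul_of_dvd_left (h33.trans hc') _) (dvd_mul_of_dvd_right (dvd_neg.2 hc3) _)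
      · rw [show L' 1 0 * -γ 0 1 + L' 1 1 * γ 0 0 - 1 =
          (L' 1 1 - γ 1 1) * γ 0 0 + (γ 1 0 - L' 1 0) * γ 0 1 by linear_combination hdetγ]
        exact dvd_add (dvd_mul_of_dvd_left (h33.trans hdp) _)
          (dvd_mul_of_dvd_left (dvd_sub hc3 (h33.trans hc')) _)
    have hFL : F ∣[(1 : ℤ)] L' = F ∣[(1 : ℤ)] γ := by
      conv_lhs => rw [show L' = L' * γ⁻¹ * γ by group, SlashAction.slash_mul, hinv _ hmem]
    rw [← SlashAction.slash_mul, diaFun, sl_slash, ← SlashAction.slash_mul, ← SlashAction.slash_mul]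
    rw [sl_slash] at hFL
    rw [← mul_assoc, hL', SlashAction.slash_mul, SlashAction.slash_mul, hFL, sl_slash]
    rw [← SlashAction.slash_mul]
    congr 1
    refine Units.ext ?_
    rw [Units.val_mul, Units.val_mul, ModularForm.val_heckeDiagMatrix (NeZero.ne M),
      ModularForm.val_heckeDiagMatrix hp.out.ne_zero]
    ext a b
    fin_cases a <;> fin_cases b <;> simp [Matrix.mul_apply, Fin.sum_univ_two, mul_comm]

/-- The weight one eigenform at level `3 M²` from a harmonic form on `Γ₁(3) ∩ Γ(M)`. -/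
theorem exists_eigenform_of_mixed {F : ℍ → ℂ} (hinv : ∀ γ, InMixed M γ → F ∣[(1 : ℤ)] γ = F)
    (hexp : ∀ A : SL(2, ℤ), HasHarmExp h (F ∣[(1 : ℤ)] A)) (hF : F ≠ 0)
    (S : Set ℕ) (a : ℕ → ℂ) (hreal : ∀ p ∈ S, conj (a p) = a p)
    (hT : ∀ p : ℕ, p ∈ S → ∀ hp : p.Prime, ¬ p ∣ 3 * M ^ 2 ∧
      ∃ γ : SL(2, ℤ), (M : ℤ) ∣ γ 0 1 ∧ (M : ℤ) ∣ γ 1 0 ∧ (3 : ℤ) ∣ γ 1 0 ∧
        (3 * M : ℤ) ∣ γ 1 1 - p ∧
        (haveI : Fact p.Prime := ⟨hp⟩
         (∑ j ∈ Finset.range p, F ∣[(1 : ℤ)] upperM M p j) +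
           (F ∣[(1 : ℤ)] γ) ∣[(1 : ℤ)] ModularForm.heckeDiagMatrix p = a p • F)) :
    ∃ (f : CuspForm (Gamma1 (3 * M ^ 2)) 1) (ε : DirichletCharacter ℂ (3 * M ^ 2)),
      qCoeff f 1 = 1 ∧
      (∀ p : ℕ, p.Prime → ¬ p ∣ 3 * M ^ 2 → ∀ n : ℕ,
        qCoeff f (p * n) + ε (p : ZMod (3 * M ^ 2)) * (if p ∣ n then qCoeff f (n / p) else 0) =
          qCoeff f p * qCoeff f n) ∧
      (∀ γ ∈ Gamma0 (3 * M ^ 2),
        ⇑f ∣[(1 : ℤ)] γ = ε ((γ 1 1 : ℤ) : ZMod (3 * M ^ 2)) • ⇑f) ∧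
      ∀ p : ℕ, p ∈ S → p.Prime → qCoeff f p = a p := by
  have hN : NeZero (3 * M ^ 2) := ⟨by simp [NeZero.ne M]⟩
  have hhM : NeZero (h * M) := ⟨mul_ne_zero (NeZero.ne h) (NeZero.ne M)⟩
  refine exists_eigenform_of_harmonic (N := 3 * M ^ 2) (h := h * M) (rescale M F)
    (isInv_rescale hinv) (hasHarmExp_rescale hexp) (fun h0 => hF (rescale_eq_zero h0)) S a hreal
    fun p hpS hp => ?_
  have : Fact p.Prime := ⟨hp⟩
  obtain ⟨hpN, γ, hb, hc, hc3, hd, he⟩ := hT p hpS hp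
  rw [heckeOp_rescale hinv hpN γ hb hc hc3 hd, he]
  have hσ : UpperHalfPlane.σ (ModularForm.heckeDiagMatrix M) = .refl ℝ ℂ :=
    ModularForm.σ_heckeDiagMatrix M
  simp [rescale, ModularForm.smul_slash, hσ]

end Fermat.Agent.LT.WeightOne
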