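import Mathlib
import Fermat.Agent.LT.WeightOne.Series

/-!
# The operator `ξ(F) = v · conj(∂F/∂(conj τ))` in weight one

It commutes with the weight one action of `GL₂⁺(ℝ)`, kills holomorphic functions, and sends a
harmonic series to the `q`-series of the conjugate coefficients of its nonholomorphic part.
-/

set_option autoImplicit false

noncomputable section

open UpperHalfPlane hiding I
open Complex Filter Topology
open scoped ComplexConjugate Real MatrixGroups ModularForm Manifold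

namespace Fermat.Agent.LT.WeightOne

/-- `F` as a function on `ℂ` is differentiable over `ℝ` at every point of `ℍ`. -/
def RealDiff (F : ℍ → ℂ) : Prop := ∀ τ : ℍ, DifferentiableAt ℝ (F ∘ ofComplex) (τ : ℂ)

/-- `∂/∂(conj z)` of an `ℝ`-linear map. -/
def antiPart (L : ℂ →L[ℝ] ℂ) : ℂ := (L 1 + I * L I) / 2

/-- `ξ(F) = v · conj(∂F/∂(conj τ))`. -/
def xi (F : ℍ → ℂ) (τ : ℍ) : ℂ :=
  τ.im * conj (antiPart (fderiv ℝ (F ∘ ofComplex) τ))

theorem xi_eq {F : ℍ → ℂ} {τ : ℍ} {L : ℂ →L[ℝ] ℂ} (h : HasFDerivAt (F ∘ ofComplex) L (τ : ℂ)) :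
    xi F τ = τ.im * conj (antiPart L) := by
  rw [xi, h.fderiv]

theorem xi_add {F G : ℍ → ℂ} (hF : RealDiff F) (hG : RealDiff G) : xi (F + G) = xi F + xi G := by
  funext τ
  have h : HasFDerivAt ((F + G) ∘ ofComplex)
      (fderiv ℝ (F ∘ ofComplex) τ + fderiv ℝ (G ∘ ofComplex) τ) (τ : ℂ) :=
    (hF τ).hasFDerivAt.add (hG τ).hasFDerivAt
  rw [xi_eq h, Pi.add_apply, xi, xi, ← mul_add, ← map_add]
  congr 2
  simp only [antiPart, add_apply]
  ring

theorem xi_smul {F : ℍ → ℂ} (hF : RealDiff F) (a : ℂ) : xi (a • F) = conj a • xi F := by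
  funext τ
  have h : HasFDerivAt ((a • F) ∘ ofComplex) (a • fderiv ℝ (F ∘ ofComplex) τ) (τ : ℂ) :=
    (hF τ).hasFDerivAt.const_smul a
  rw [xi_eq h, Pi.smul_apply, xi, smul_eq_mul, mul_left_comm, ← map_mul]
  congr 2
  simp only [antiPart, smul_apply, smul_eq_mul]
  ring

theorem xi_zero : xi 0 = 0 := by
  funext τ
  rw [xi_eq (F := 0) (L := 0) (hasFDerivAt_const (0 : ℂ) _)]
  simp [antiPart]

theorem RealDiff.add {F G : ℍ → ℂ} (hF : RealDiff F) (hG : RealDiff G) : RealDiff (F + G) :=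
  fun τ => (hF τ).add (hG τ)

theorem realDiff_sum {ι : Type*} (s : Finset ι) {F : ι → ℍ → ℂ} (hF : ∀ i, RealDiff (F i)) :
    RealDiff (∑ i ∈ s, F i) ∧ xi (∑ i ∈ s, F i) = ∑ i ∈ s, xi (F i) := by
  classical
  induction s using Finset.induction_on with
  | empty =>
    rw [Finset.sum_empty, Finset.sum_empty]
    exact ⟨fun τ => differentiableAt_const (0 : ℂ), xi_zero⟩
  | insert a s ha ih =>
    rw [Finset.sum_insert ha, Finset.sum_insert ha]
    exact ⟨(hF a).add ih.1, by rw [xi_add (hF a) ih.1, ih.2]⟩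

/-- An `ℝ`-linear map through a `ℂ`-linear one. -/
theorem antiPart_comp (L : ℂ →L[ℝ] ℂ) (D : ℂ) :
    (L (D * 1) + I * L (D * I)) / 2 = conj D * antiPart L := by
  have hL : ∀ z : ℂ, L z = z.re • L 1 + z.im • L I := fun z => by
    rw [← map_smul, ← map_smul, ← map_add]
    congr 1
    simp [Complex.real_smul, Complex.re_add_im]
  rw [hL (D * 1), hL (D * I), antiPart]
  apply Complex.ext <;> simp <;> ring

/-- The slash by a matrix of positive determinant commutes with `ξ`. -/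
theorem xi_slash {F : ℍ → ℂ} (hF : RealDiff F) {g : GL (Fin 2) ℝ} (hg : 0 < g.det.val) :
    RealDiff (F ∣[(1 : ℤ)] g) ∧ xi (F ∣[(1 : ℤ)] g) = xi F ∣[(1 : ℤ)] g := by
  have key : ∀ τ : ℍ, ∃ L : ℂ →L[ℝ] ℂ, HasFDerivAt ((F ∣[(1 : ℤ)] g) ∘ ofComplex) L (τ : ℂ) ∧
      antiPart L = (denom g τ)⁻¹ * (conj ((g.det.val : ℂ) / denom g τ ^ 2) *
        antiPart (fderiv ℝ (F ∘ ofComplex) (g • τ : ℍ))) := by
    intro τ
    have hden : denom g τ ≠ 0 := denom_ne_zero g τ
    have hnum : HasDerivAt (num g) (g 0 0 : ℂ) (τ : ℂ) := by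
      exact (((hasDerivAt_id (τ : ℂ)).const_mul (g 0 0 : ℂ)).add_const (g 0 1 : ℂ)).congr_deriv
        (mul_one _)
    have hdenom : HasDerivAt (denom g) (g 1 0 : ℂ) (τ : ℂ) := by
      exact (((hasDerivAt_id (τ : ℂ)).const_mul (g 1 0 : ℂ)).add_const (g 1 1 : ℂ)).congr_deriv
        (mul_one _)
    have hm : HasDerivAt (fun z => num g z / denom g z) ((g.det.val : ℂ) / denom g τ ^ 2)
        (τ : ℂ) := by
      refine (hnum.div hdenom hden).congr_deriv ?_
      rw [Matrix.GeneralLinearGroup.val_det_apply, Matrix.det_fin_two, num, denom]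
      push_cast
      ring
    have hval : num g (τ : ℂ) / denom g τ = ((g • τ : ℍ) : ℂ) := (coe_smul_of_det_pos hg τ).symm
    have h1 := (hF (g • τ)).hasFDerivAt
    rw [← hval] at h1
    have h2 := h1.comp (τ : ℂ) (hm.hasFDerivAt.restrictScalars ℝ)
    have h3 := ((hdenom.inv hden).hasFDerivAt.restrictScalars ℝ).mul h2
    refine ⟨_, h3.congr_of_eventuallyEq ?_, ?_⟩
    · filter_upwards [isOpen_upperHalfPlaneSet.mem_nhds τ.im_pos] with z hz
      simp only [Function.comp_apply, ofComplex_apply_of_im_pos hz, Pi.mul_apply, Pi.inv_apply]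
      rw [ModularForm.slash_apply, show (num g z / denom g z) = ((g • (⟨z, hz⟩ : ℍ) : ℍ) : ℂ) from
        (coe_smul_of_det_pos hg ⟨z, hz⟩).symm, ofComplex_apply, UpperHalfPlane.σ, if_pos hg]
      simp [mul_comm]
    · rw [← hval]
      simp only [antiPart, add_apply, smul_apply, ContinuousLinearMap.comp_apply,
        ContinuousLinearMap.coe_restrictScalars', ContinuousLinearMap.toSpanSingleton_apply,
        smul_eq_mul, Pi.inv_apply]
      rw [show conj ((g.det.val : ℂ) / denom g τ ^ 2) *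
          ((fderiv ℝ (F ∘ ofComplex) (num g τ / denom g τ) 1 +
            I * fderiv ℝ (F ∘ ofComplex) (num g τ / denom g τ) I) / 2) =
          conj ((g.det.val : ℂ) / denom g τ ^ 2) *
            antiPart (fderiv ℝ (F ∘ ofComplex) (num g τ / denom g τ)) from rfl, ← antiPart_comp]
      rw [mul_comm ((g.det.val : ℂ) / denom g τ ^ 2) 1, mul_comm ((g.det.val : ℂ) / denom g τ ^ 2) I]
      linear_combination (-(Function.comp (F ∘ ofComplex) (fun z => num g z / denom g z) (τ : ℂ)) *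
        (g 1 0 : ℂ) / denom g τ ^ 2 / 2) * Complex.I_mul_I
  refine ⟨fun τ => ?_, funext fun τ => ?_⟩
  · obtain ⟨L, hL, -⟩ := key τ
    exact hL.differentiableAt
  · obtain ⟨L, hL, hL'⟩ := key τ
    rw [xi_eq hL, hL', ModularForm.slash_apply, UpperHalfPlane.σ, if_pos hg, xi,
      im_smul_eq_div_normSq, abs_of_pos hg]
    have hden : denom g τ ≠ 0 := denom_ne_zero g τ
    have hn : (Complex.normSq (denom g τ) : ℂ) = conj (denom g τ) * denom g τ :=
      Complex.normSq_eq_conj_mul_self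
    simp only [map_mul, map_div₀, map_pow, map_inv₀, Complex.conj_conj, Complex.conj_ofReal,
      sub_self, zpow_zero, mul_one, zpow_neg_one, ContinuousAlgEquiv.refl_apply]
    push_cast
    rw [hn]
    have hden' : conj (denom g τ) ≠ 0 := (map_ne_zero _).2 hden
    field_simp

/-- Real differentiable with `ξ = 0` is holomorphic. -/
theorem mdiff_of_xi_eq_zero {F : ℍ → ℂ} (hF : RealDiff F) (h : xi F = 0) : MDiff F := by
  refine UpperHalfPlane.mdifferentiable_iff.2 fun z (hz : 0 < z.im) => ?_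
  refine (differentiableAt_complex_iff_differentiableAt_real.2
    ⟨hF ⟨z, hz⟩, ?_⟩).differentiableWithinAt
  have h0 := congrFun h ⟨z, hz⟩
  simp only [xi, Pi.zero_apply, mul_eq_zero, Complex.ofReal_eq_zero,
    map_eq_zero, antiPart, div_eq_zero_iff, OfNat.ofNat_ne_zero, or_false] at h0
  replace h0 := h0.resolve_left (UpperHalfPlane.im_pos ⟨z, hz⟩).ne'
  rw [smul_eq_mul]
  linear_combination -I * h0 + (fderiv ℝ (F ∘ ofComplex) z I) * Complex.I_mul_I

/-- The harmonic series as a function on `ℍ`. -/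
def harmSeries (h : ℕ) (cp cm : ℕ → ℂ) (τ : ℍ) : ℂ := qSeries h cp τ + eSeries h cm τ

/-- `F` is a harmonic series of width `h` at `∞`. -/
def HasHarmExp (h : ℕ) (F : ℍ → ℂ) : Prop :=
  ∃ cp cm : ℕ → ℂ, IsCoeff cp ∧ IsCoeff cm ∧ F = harmSeries h cp cm

/-- The coefficients of `ξ`. -/
def xiCoeff (cm : ℕ → ℂ) (n : ℕ) : ℂ := I / 2 * conj (cm n)

theorem IsCoeff.xiCoeff {cm : ℕ → ℂ} (hc : IsCoeff cm) : IsCoeff (xiCoeff cm) := by
  obtain ⟨h0, C, K, hC⟩ := hc
  refine ⟨by simp [WeightOne.xiCoeff, h0], C, K, fun n => ?_⟩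
  refine le_trans ?_ (hC n)
  have := norm_nonneg (cm n)
  simp [WeightOne.xiCoeff]
  linarith

variable {h : ℕ} [NeZero h] {cp cm : ℕ → ℂ}

omit [NeZero h] in
theorem antiPart_eTermDeriv (a : ℂ) (n : ℕ) (z : ℂ) :
    antiPart (a • eTermDeriv h n z) =
      a * (I / 2) * ((-(Real.exp (-(4 * π * n / h * z.im)) / z.im) : ℝ) *
        Complex.exp (-(2 * π * I * n * z / h))) := by
  simp only [antiPart, eTermDeriv, smul_apply, add_apply, ContinuousLinearMap.smulRight_apply,
    one_apply_eq_self, Complex.imCLM_apply, Complex.one_im, Complex.I_im, zero_smul, one_smul,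
    smul_eq_mul]
  generalize ((expInt (4 * π * n / h * z.im) : ℝ) : ℂ) *
    Complex.exp (-(2 * π * I * n * z / h)) * -(2 * π * I * n / h) = A
  generalize ((-(Real.exp (-(4 * π * n / h * z.im)) / z.im) : ℝ) : ℂ) *
    Complex.exp (-(2 * π * I * n * z / h)) = B
  linear_combination (a * A / 2) * Complex.I_mul_I

omit [NeZero h] in
theorem xi_term (cm : ℕ → ℂ) (n : ℕ) (τ : ℍ) :
    (τ.im : ℂ) * conj (antiPart (cm n • eTermDeriv h n τ)) = xiCoeff cm n * qTerm h n τ := by
  have hv : ((τ.im : ℝ) : ℂ) ≠ 0 := Complex.ofReal_ne_zero.2 τ.im_pos.ne'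
  have hexp : conj (Complex.exp (-(2 * π * I * n * (τ : ℂ) / h))) *
      (Real.exp (-(4 * π * n / h * τ.im)) : ℂ) = qTerm h n τ := by
    rw [qTerm, ← Complex.exp_conj, Complex.ofReal_exp, ← Complex.exp_add]
    congr 1
    apply Complex.ext <;> simp <;> ring
  rw [antiPart_eTermDeriv, ← hexp, xiCoeff, map_mul, map_mul, map_mul, map_div₀, Complex.conj_I,
    Complex.conj_ofReal, map_ofNat, coe_im]
  generalize conj (Complex.exp (-(2 * π * I * n * (τ : ℂ) / h))) = E
  generalize Real.exp (-(4 * π * n / h * τ.im)) = r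
  push_cast
  field_simp

theorem xi_harmSeries (hp : IsCoeff cp) (hm : IsCoeff cm) :
    RealDiff (harmSeries h cp cm) ∧
      xi (harmSeries h cp cm) = fun τ : ℍ => qSeries h (xiCoeff cm) τ := by
  have key : ∀ τ : ℍ, HasFDerivAt (harmSeries h cp cm ∘ ofComplex)
      ((fderiv ℂ (qSeries h cp) τ).restrictScalars ℝ + ∑' n, cm n • eTermDeriv h n τ) (τ : ℂ) := by
    intro τ
    refine ((((differentiableAt_qSeries hp τ.im_pos).hasFDerivAt).restrictScalars ℝ).add
      (hasFDerivAt_eSeries hm τ.im_pos)).congr_of_eventuallyEq ?_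
    filter_upwards [isOpen_upperHalfPlaneSet.mem_nhds τ.im_pos] with z hz
    simp [harmSeries, ofComplex_apply_of_im_pos hz]
  refine ⟨fun τ => (key τ).differentiableAt, funext fun τ => ?_⟩
  have hs : Summable fun n => cm n • eTermDeriv h n (τ : ℂ) :=
    summable_eTermDeriv (h := h) (z := (τ : ℂ)) hm τ.im_pos
  have hev : ∀ u : ℂ, (∑' n, cm n • eTermDeriv h n τ) u = ∑' n, (cm n • eTermDeriv h n τ) u :=
    fun u => (ContinuousLinearMap.apply ℝ ℂ u).map_tsum hs
  have hsu : ∀ u : ℂ, Summable fun n => (cm n • eTermDeriv h n τ) u :=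
    fun u => (hs.hasSum.map (ContinuousLinearMap.apply ℝ ℂ u) (ContinuousLinearMap.apply ℝ ℂ u).continuous).summable
  have hanti : antiPart ((fderiv ℂ (qSeries h cp) τ).restrictScalars ℝ +
      ∑' n, cm n • eTermDeriv h n τ) = ∑' n, antiPart (cm n • eTermDeriv h n τ) := by
    simp only [antiPart, add_apply, hev, ContinuousLinearMap.coe_restrictScalars']
    rw [show (fderiv ℂ (qSeries h cp) τ) I = I * (fderiv ℂ (qSeries h cp) τ) 1 by
      rw [← smul_eq_mul, ← map_smul, smul_eq_mul, mul_one]]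
    rw [tsum_div_const, Summable.tsum_add (hsu 1) ((hsu I).mul_left I), tsum_mul_left]
    linear_combination (fderiv ℂ (qSeries h cp) τ 1) / 2 * Complex.I_mul_I
  rw [xi_eq (key τ), hanti, qSeries, Complex.conj_tsum, ← tsum_mul_left]
  refine tsum_congr fun n => ?_
  exact xi_term cm n τ

theorem mdiff_qSeries {c : ℕ → ℂ} (hc : IsCoeff c) : MDiff (fun τ : ℍ => qSeries h c τ) :=
  UpperHalfPlane.mdifferentiable_iff.2 fun z (hz : 0 < z.im) =>
    ((differentiableAt_qSeries (h := h) hc hz).congr_of_eventuallyEq (by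
      filter_upwards [isOpen_upperHalfPlaneSet.mem_nhds hz] with w hw
      simp [ofComplex_apply_of_im_pos hw])).differentiableWithinAt

theorem isZeroAtImInfty_harmSeries (hp : IsCoeff cp) (hm : IsCoeff cm) :
    IsZeroAtImInfty (harmSeries h cp cm) := by
  rw [isZeroAtImInfty_iff]
  intro ε hε
  obtain ⟨A, hA⟩ := tendsto_qSeries (h := h) hp (half_pos hε)
  obtain ⟨B, hB⟩ := tendsto_qSeries (h := h) hm (half_pos hε)
  refine ⟨max A B, fun τ hτ => (norm_add_le _ _).trans ?_⟩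
  linarith [(hA τ ((le_max_left _ _).trans hτ)).1, (hB τ ((le_max_right _ _).trans hτ)).2]

theorem isZeroAtImInfty_qSeries {c : ℕ → ℂ} (hc : IsCoeff c) :
    IsZeroAtImInfty (fun τ : ℍ => qSeries h c τ) := by
  rw [isZeroAtImInfty_iff]
  intro ε hε
  obtain ⟨A, hA⟩ := tendsto_qSeries (h := h) hc hε
  exact ⟨A, fun τ hτ => (hA τ hτ).1⟩

end Fermat.Agent.LT.WeightOne
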