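import Fermat.Agent.HK.HeckePeriods
import Fermat.Prelude.Thm_UpperHalfPlane_qCoeff_heckeT
import Fermat.Prelude.Thm_UpperHalfPlane_qCoeff_heckeU
import Fermat.Prelude.Thm_UpperHalfPlane_eq_of_forall_qCoeff_eq
import Fermat.Prelude.Thm_CuspFormClass_isZeroAt_heckeT
import Fermat.Prelude.Thm_CuspFormClass_isZeroAt_heckeU
import Fermat.Prelude.Thm_ModularForm_periodic_heckeT_comp_ofComplex
import Fermat.Prelude.Thm_ModularForm_periodic_heckeU_comp_ofComplex
import Fermat.Prelude.Thm_ModularForm_isBoundedAtImInfty_heckeT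
import Fermat.Prelude.Thm_ModularForm_isBoundedAtImInfty_heckeU
import Fermat.Prelude.Thm_ModularForm_mdifferentiable_heckeT
import Fermat.Prelude.Thm_ModularForm_mdifferentiable_heckeU

/-!
# Hecke and diamond operators on `Γ₁(N)`

`heckeOp k N p` is the double coset of `diag(1, p)` in `Γ₁(N)`: it is `T_p` for `p ∤ N` and `U_p`
for `p ∣ N`. It commutes with the slash action of `Γ₀(N)` on `Γ₁(N)`-invariant functions.
-/

set_option autoImplicit false

noncomputable section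

open CongruenceSubgroup UpperHalfPlane ModularFormClass Matrix.SpecialLinearGroup
open scoped MatrixGroups ModularForm

namespace Fermat.Agent.LT.WeightOne

open Fermat.Agent.HK

/-- An element of `Γ₀(N)` with lower row `(N, a)`, for `a` prime to `N`. -/
theorem exists_lowRow {N a : ℕ} (h : Nat.Coprime a N) :
    ∃ γ : Gamma0 N, (γ : SL(2, ℤ)) 1 0 = (N : ℤ) ∧ (γ : SL(2, ℤ)) 1 1 = (a : ℤ) := by
  obtain ⟨u, v, huv⟩ : IsCoprime (a : ℤ) (N : ℤ) := Nat.isCoprime_iff_coprime.2 h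
  refine ⟨⟨⟨!![u, -v; (N : ℤ), (a : ℤ)], ?_⟩, Gamma0_mem.2 ?_⟩, rfl, rfl⟩
  · rw [Matrix.det_fin_two_of]; linarith
  · simp

open scoped Classical in
/-- A representative of the diamond operator `⟨a⟩`. -/
def lowRow (N a : ℕ) : Gamma0 N :=
  if h : Nat.Coprime a N then (exists_lowRow h).choose else 1

theorem lowRow_one_one {N a : ℕ} (h : Nat.Coprime a N) :
    ((lowRow N a : SL(2, ℤ)) 1 1 : ℤ) = (a : ℤ) := by
  rw [lowRow, dif_pos h]
  exact (exists_lowRow h).choose_spec.2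

theorem gamma0Map_lowRow {N a : ℕ} (h : Nat.Coprime a N) : Gamma0Map N (lowRow N a) = (a : ZMod N) := by
  show (((lowRow N a : SL(2, ℤ)) 1 1 : ℤ) : ZMod N) = _
  rw [lowRow_one_one h, Int.cast_natCast]

/-! ### Invariant functions and diamonds -/

/-- `f` is invariant under the weight `k` action of `Γ₁(N)`. -/
def IsInv (k : ℤ) (N : ℕ) (f : ℍ → ℂ) : Prop :=
  ∀ γ : SL(2, ℤ), γ ∈ Gamma1 N → f ∣[k] γ = f

variable {k : ℤ} {N : ℕ} {f : ℍ → ℂ}

theorem conj_mem_gamma1 (γ : Gamma0 N) {g : SL(2, ℤ)} (hg : g ∈ Gamma1 N) :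
    (γ : SL(2, ℤ)) * g * (γ : SL(2, ℤ))⁻¹ ∈ Gamma1 N := by
  have hg0 : g ∈ Gamma0 N := Gamma1_in_Gamma0 N hg
  have h1 : (⟨g, hg0⟩ : Gamma0 N) ∈ Gamma1' N := by
    rw [Gamma1_to_Gamma0_mem]; exact (Gamma1_mem N g).1 hg
  have h2 : γ * ⟨g, hg0⟩ * γ⁻¹ ∈ Gamma1' N := by
    have : (Gamma1' N).Normal := MonoidHom.normal_ker _
    exact Subgroup.Normal.conj_mem inferInstance _ h1 γ
  exact (Gamma1_mem N _).2 ((Gamma1_to_Gamma0_mem _).1 h2)

theorem IsInv.slash_gamma0 (hf : IsInv k N f) (γ : Gamma0 N) :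
    IsInv k N (f ∣[k] (γ : SL(2, ℤ))) := by
  intro g hg
  rw [← SlashAction.slash_mul,
    show (γ : SL(2, ℤ)) * g = (γ : SL(2, ℤ)) * g * (γ : SL(2, ℤ))⁻¹ * (γ : SL(2, ℤ)) by group,
    SlashAction.slash_mul, hf _ (conj_mem_gamma1 γ hg)]

theorem IsInv.slash_eq_of_map_eq (hf : IsInv k N f) {γ γ' : Gamma0 N}
    (h : Gamma0Map N γ = Gamma0Map N γ') :
    f ∣[k] (γ : SL(2, ℤ)) = f ∣[k] (γ' : SL(2, ℤ)) := by
  have h1 : γ * γ'⁻¹ ∈ Gamma1' N := by
    rw [Gamma1_mem', map_mul, h, ← map_mul, mul_inv_cancel, map_one]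
  have h2 : ((γ * γ'⁻¹ : Gamma0 N) : SL(2, ℤ)) ∈ Gamma1 N :=
    (Gamma1_mem N _).2 ((Gamma1_to_Gamma0_mem _).1 h1)
  have h3 : (γ : SL(2, ℤ)) = ((γ * γ'⁻¹ : Gamma0 N) : SL(2, ℤ)) * (γ' : SL(2, ℤ)) := by simp
  rw [h3, SlashAction.slash_mul, hf _ h2]

/-- The diamond operator `⟨a⟩`. -/
def diaFun (k : ℤ) (N a : ℕ) (f : ℍ → ℂ) : ℍ → ℂ := f ∣[k] (lowRow N a : SL(2, ℤ))

theorem IsInv.diaFun_mul (hf : IsInv k N f) {a b c : ℕ} (ha : Nat.Coprime a N)
    (hb : Nat.Coprime b N) (hc : Nat.Coprime c N) (h : ((a * b : ℕ) : ZMod N) = (c : ZMod N)) :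
    diaFun k N b (diaFun k N a f) = diaFun k N c f := by
  rw [diaFun, diaFun, diaFun, ← SlashAction.slash_mul,
    show (lowRow N a : SL(2, ℤ)) * (lowRow N b : SL(2, ℤ)) =
      ((lowRow N a * lowRow N b : Gamma0 N) : SL(2, ℤ)) from rfl]
  refine hf.slash_eq_of_map_eq ?_
  rw [map_mul, gamma0Map_lowRow ha, gamma0Map_lowRow hb, gamma0Map_lowRow hc, ← Nat.cast_mul, h]

theorem IsInv.diaFun_of_eq_one (hf : IsInv k N f) {a : ℕ} (ha : Nat.Coprime a N)
    (h : (a : ZMod N) = 1) : diaFun k N a f = f := by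
  have := hf.slash_eq_of_map_eq (γ := lowRow N a) (γ' := 1)
    (by rw [gamma0Map_lowRow ha, h, map_one])
  simpa [diaFun] using this

/-! ### The coset representatives -/

variable {p : ℕ}

/-- The left translate of `heckeMat`. -/
def shift (i : HeckeIdx N p) : Gamma0 N :=
  match i.1 with
  | some _ => 1
  | none => lowRow N p

/-- The representatives of `Γ₁(N) diag(1, p) Γ₁(N)`. -/
def rep (i : HeckeIdx N p) : Matrix (Fin 2) (Fin 2) ℤ :=
  ((shift i : SL(2, ℤ)) : Matrix (Fin 2) (Fin 2) ℤ) * heckeMat i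

/-- The representatives in `GL₂(ℝ)`. -/
def repGL (i : HeckeIdx N p) : GL (Fin 2) ℝ :=
  mapGL ℝ (shift i : SL(2, ℤ)) * heckeGL i

@[simp] theorem shift_upper (j : Fin p) : shift (HeckeIdx.upper N j) = 1 := rfl

@[simp] theorem shift_diag (h : ¬ p ∣ N) : shift (HeckeIdx.diag h) = lowRow N p := rfl

theorem sl_slash (k : ℤ) (f : ℍ → ℂ) (γ : SL(2, ℤ)) : f ∣[k] γ = f ∣[k] mapGL ℝ γ := rfl

/-- Membership in the double coset, mod `N`. -/
structure InDelta (N p : ℕ) (M : Matrix (Fin 2) (Fin 2) ℤ) : Prop where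
  det : M.det = p
  low : ((M 1 0 : ℤ) : ZMod N) = 0
  top : ((M 0 0 : ℤ) : ZMod N) = 1

variable [hp : Fact p.Prime]

theorem coprime_of_not_dvd (h : ¬ p ∣ N) : Nat.Coprime p N :=
  (Nat.Prime.coprime_iff_not_dvd hp.out).2 h

theorem inDelta_rep (i : HeckeIdx N p) : InDelta N p (rep i) := by
  refine ⟨?_, ?_, ?_⟩
  · rw [rep, Matrix.det_mul, det_heckeMat, Matrix.SpecialLinearGroup.det_coe, one_mul]
  · have h0 : (((shift i : SL(2, ℤ)) 1 0 : ℤ) : ZMod N) = 0 := Gamma0_mem.1 (shift i).2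
    rw [rep, Matrix.mul_apply, Fin.sum_univ_two, heckeMat_one_zero, mul_zero, add_zero,
      Int.cast_mul, h0, zero_mul]
  · induction i using HeckeIdx.cases_upper_diag with
    | h1 j => simp [rep]
    | h2 h =>
      have h0 : (((lowRow N p : SL(2, ℤ)) 1 0 : ℤ) : ZMod N) = 0 := Gamma0_mem.1 (lowRow N p).2
      have h11 : (((lowRow N p : SL(2, ℤ)) 1 1 : ℤ) : ZMod N) = (p : ZMod N) := by
        rw [lowRow_one_one (coprime_of_not_dvd h), Int.cast_natCast]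
      have hdet := congrArg (fun x : ℤ => (x : ZMod N))
        ((Matrix.det_fin_two _).symm.trans (lowRow N p : SL(2, ℤ)).det_coe)
      simp only [Int.cast_sub, Int.cast_mul, h0, h11, mul_zero, sub_zero, Int.cast_one] at hdet
      rw [rep, shift_diag, heckeMat_diag, Matrix.mul_apply, Fin.sum_univ_two]
      simpa using hdet

theorem exists_rep_mul {M : Matrix (Fin 2) (Fin 2) ℤ} (hM : InDelta N p M) :
    ∃ (i : HeckeIdx N p) (h : Gamma1 N),
      ((h : SL(2, ℤ)) : Matrix (Fin 2) (Fin 2) ℤ) * rep i = M := by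
  obtain ⟨i, h, hh⟩ := exists_eq_mul_heckeMat (N := N) hM.det
    ((ZMod.intCast_zmod_eq_zero_iff_dvd _ _).1 hM.low) (fun hpN hdvd => by
      have h1 : (N : ℤ) ∣ M 0 0 - 1 :=
        (ZMod.intCast_zmod_eq_zero_iff_dvd _ _).1 (by rw [Int.cast_sub, hM.top]; simp)
      exact (Nat.prime_iff_prime_int.mp hp.out).not_isUnit (isUnit_of_dvd_one
        (by simpa using dvd_sub hdvd ((Int.natCast_dvd_natCast.mpr hpN).trans h1))))
  set h' : Gamma0 N := h * (shift i)⁻¹ with hh'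
  have e : ((h' : SL(2, ℤ)) : Matrix (Fin 2) (Fin 2) ℤ) * rep i = M := by
    rw [← hh, hh', rep, ← Matrix.mul_assoc, ← Matrix.SpecialLinearGroup.coe_mul, Subgroup.coe_mul,
      mul_assoc, InvMemClass.coe_inv, inv_mul_cancel, mul_one]
  refine ⟨i, ⟨(h' : SL(2, ℤ)), ?_⟩, e⟩
  have h0 : (((h' : SL(2, ℤ)) 1 0 : ℤ) : ZMod N) = 0 := Gamma0_mem.1 h'.2
  have e00 := congrArg (fun x : ℤ => (x : ZMod N)) (congrFun (congrFun e 0) 0)
  simp only [Matrix.mul_apply, Fin.sum_univ_two, Int.cast_add, Int.cast_mul, (inDelta_rep i).top,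
    (inDelta_rep i).low, mul_one, mul_zero, add_zero, hM.top] at e00
  have hdet := congrArg (fun x : ℤ => (x : ZMod N))
    ((Matrix.det_fin_two _).symm.trans (h' : SL(2, ℤ)).det_coe)
  simp only [Int.cast_sub, Int.cast_mul, h0, e00, one_mul, mul_zero, sub_zero,
    Int.cast_one] at hdet
  exact (Gamma1_mem N _).2 ⟨e00, hdet, h0⟩

theorem inDelta_conj (γ : Gamma0 N) (i : HeckeIdx N p) :
    InDelta N p ((((γ : SL(2, ℤ))⁻¹ : SL(2, ℤ)) : Matrix (Fin 2) (Fin 2) ℤ) * rep i *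
      ((γ : SL(2, ℤ)) : Matrix (Fin 2) (Fin 2) ℤ)) := by
  have hr := inDelta_rep i
  have h0 : (((γ : SL(2, ℤ)) 1 0 : ℤ) : ZMod N) = 0 := Gamma0_mem.1 γ.2
  have hdet := congrArg (fun x : ℤ => (x : ZMod N))
    ((Matrix.det_fin_two _).symm.trans (γ : SL(2, ℤ)).det_coe)
  simp only [Int.cast_sub, Int.cast_mul, h0, mul_zero, sub_zero, Int.cast_one] at hdet
  refine ⟨?_, ?_, ?_⟩
  · rw [Matrix.det_mul, Matrix.det_mul, hr.det, Matrix.SpecialLinearGroup.det_coe,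
      Matrix.SpecialLinearGroup.det_coe, one_mul, mul_one]
  · simp only [Matrix.SpecialLinearGroup.coe_inv, Matrix.adjugate_fin_two, Matrix.mul_apply,
      Fin.sum_univ_two, Matrix.of_apply, Matrix.cons_val_zero, Matrix.cons_val_one, Int.cast_add,
      Int.cast_mul, Int.cast_neg, h0, hr.low]
    ring
  · simp only [Matrix.SpecialLinearGroup.coe_inv, Matrix.adjugate_fin_two, Matrix.mul_apply,
      Fin.sum_univ_two, Matrix.of_apply, Matrix.cons_val_zero, Matrix.cons_val_one, Int.cast_add,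
      Int.cast_mul, Int.cast_neg, h0, hr.low, hr.top]
    linear_combination hdet

theorem val_repGL (i : HeckeIdx N p) :
    ((repGL i : GL (Fin 2) ℝ) : Matrix (Fin 2) (Fin 2) ℝ) = (rep i).map (Int.castRingHom ℝ) := by
  rw [repGL, Units.val_mul, val_heckeGL, rep, Matrix.map_mul,
    Matrix.SpecialLinearGroup.mapGL_coe_matrix]
  simp [RingHom.mapMatrix_apply, algebraMap_int_eq]

/-- Right translation by `γ ∈ Γ₀(N)` permutes the cosets up to conjugation. -/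
theorem exists_perm (γ : Gamma0 N) :
    ∃ (σ : HeckeIdx N p → HeckeIdx N p) (h : HeckeIdx N p → Gamma1 N), Function.Bijective σ ∧
      ∀ i, repGL i * mapGL ℝ (γ : SL(2, ℤ)) =
        mapGL ℝ (γ : SL(2, ℤ)) * mapGL ℝ (h i : SL(2, ℤ)) * repGL (σ i) := by
  choose σ h hσ using fun i => exists_rep_mul (inDelta_conj (p := p) γ i)
  have e : ∀ i, rep i * ((γ : SL(2, ℤ)) : Matrix (Fin 2) (Fin 2) ℤ) =
      ((γ : SL(2, ℤ)) : Matrix (Fin 2) (Fin 2) ℤ) *
        (((h i : SL(2, ℤ)) : Matrix (Fin 2) (Fin 2) ℤ) * rep (σ i)) := fun i => by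
    rw [hσ, ← Matrix.mul_assoc, ← Matrix.mul_assoc, ← Matrix.SpecialLinearGroup.coe_mul,
      mul_inv_cancel, Matrix.SpecialLinearGroup.coe_one, one_mul]
  refine ⟨σ, h, Finite.injective_iff_bijective.1 fun i i' hii' => ?_, fun i => ?_⟩
  · have e1 : ∀ j, rep j = (((γ : SL(2, ℤ)) * (h j : SL(2, ℤ)) : SL(2, ℤ)) :
        Matrix (Fin 2) (Fin 2) ℤ) * rep (σ j) *
          (((γ : SL(2, ℤ))⁻¹ : SL(2, ℤ)) : Matrix (Fin 2) (Fin 2) ℤ) := fun j => by
      rw [Matrix.SpecialLinearGroup.coe_mul, Matrix.mul_assoc (_ : Matrix (Fin 2) (Fin 2) ℤ) _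
        (rep (σ j)), ← e, Matrix.mul_assoc, ← Matrix.SpecialLinearGroup.coe_mul, mul_inv_cancel,
        Matrix.SpecialLinearGroup.coe_one, mul_one]
    refine heckeMat_coset_unique (k := (shift i' : SL(2, ℤ))⁻¹ * ((γ : SL(2, ℤ)) * h i') *
      ((γ : SL(2, ℤ)) * h i)⁻¹ * shift i) ?_
    rw [Matrix.SpecialLinearGroup.coe_mul, Matrix.mul_assoc, ← rep, e1 i, hii',
      ← Matrix.mul_assoc, ← Matrix.mul_assoc, ← Matrix.SpecialLinearGroup.coe_mul,
      mul_assoc _ ((γ : SL(2, ℤ)) * h i)⁻¹, inv_mul_cancel, mul_one,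
      Matrix.SpecialLinearGroup.coe_mul, Matrix.mul_assoc, Matrix.mul_assoc, ← Matrix.mul_assoc
        ((((γ : SL(2, ℤ)) * (h i' : SL(2, ℤ))) : SL(2, ℤ)) : Matrix (Fin 2) (Fin 2) ℤ),
      ← e1 i', rep, ← Matrix.mul_assoc, ← Matrix.SpecialLinearGroup.coe_mul, inv_mul_cancel,
      Matrix.SpecialLinearGroup.coe_one, one_mul]
  · refine Units.ext ?_
    have e' := congrArg (fun X => X.map (Int.castRingHom ℝ)) (e i)
    simp only [Matrix.map_mul] at e'
    simp only [Units.val_mul, val_repGL, Matrix.SpecialLinearGroup.mapGL_coe_matrix, Matrix.mul_assoc]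
    simpa [RingHom.mapMatrix_apply, algebraMap_int_eq, Matrix.mul_assoc] using e'

/-! ### The operator on functions -/

/-- `T_p` for `p ∤ N`, `U_p` for `p ∣ N`. -/
def heckeOp (k : ℤ) (N p : ℕ) (f : ℍ → ℂ) : ℍ → ℂ :=
  ∑ i : HeckeIdx N p, f ∣[k] repGL i

theorem IsInv.heckeOp_slash (hf : IsInv k N f) (γ : Gamma0 N) :
    heckeOp k N p f ∣[k] (γ : SL(2, ℤ)) = heckeOp k N p (f ∣[k] (γ : SL(2, ℤ))) := by
  obtain ⟨σ, h, hσ, hh⟩ := exists_perm (p := p) γ
  simp only [heckeOp, SlashAction.sum_slash]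
  refine Fintype.sum_bijective σ hσ _ _ fun i => ?_
  have e : (f ∣[k] repGL i) ∣[k] mapGL ℝ (γ : SL(2, ℤ)) =
      ((f ∣[k] mapGL ℝ (γ : SL(2, ℤ))) ∣[k] mapGL ℝ (h i : SL(2, ℤ))) ∣[k] repGL (σ i) := by
    rw [← SlashAction.slash_mul, ← SlashAction.slash_mul, ← SlashAction.slash_mul, hh, mul_assoc]
  rw [sl_slash, e, ← sl_slash, ← sl_slash,
    (hf.slash_gamma0 γ) _ (h i).2]

theorem IsInv.heckeOp (hf : IsInv k N f) : IsInv k N (heckeOp k N p f) := fun g hg => by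
  rw [show g = ((⟨g, Gamma1_in_Gamma0 N hg⟩ : Gamma0 N) : SL(2, ℤ)) from rfl, hf.heckeOp_slash]
  exact congrArg _ (hf g hg)

theorem IsInv.diaFun_heckeOp (hf : IsInv k N f) (a : ℕ) :
    diaFun k N a (WeightOne.heckeOp k N p f) = WeightOne.heckeOp k N p (diaFun k N a f) :=
  hf.heckeOp_slash _

open scoped Classical in
/-- The part of `heckeOp` coming from `diag(p, 1)`. -/
def diagPart (k : ℤ) (N p : ℕ) (f : ℍ → ℂ) : ℍ → ℂ :=
  if p ∣ N then 0 else diaFun k N p f ∣[k] ModularForm.heckeDiagMatrix p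

omit hp in
theorem heckeOp_eq : heckeOp k N p f = ModularForm.heckeU k p f + diagPart k N p f := by
  classical
  rw [heckeOp, ModularForm.heckeU_def,
    ← Fin.sum_univ_eq_sum_range (fun j => f ∣[k] ModularForm.heckeMatrix p j), diagPart]
  have hup : ∀ j : Fin p, f ∣[k] repGL (HeckeIdx.upper N j) =
      f ∣[k] ModularForm.heckeMatrix p j := fun j => by
    rw [repGL, shift_upper, OneMemClass.coe_one, map_one, one_mul, heckeGL_upper]
  split_ifs with h
  · rw [add_zero]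
    refine (Fintype.sum_bijective (HeckeIdx.upper N) ⟨fun a b hab => ?_, fun i => ?_⟩ _ _
      fun j => (hup j).symm).symm
    · simpa [HeckeIdx.upper] using hab
    · induction i using HeckeIdx.cases_upper_diag with
      | h1 j => exact ⟨j, rfl⟩
      | h2 h' => exact absurd h h'
  · rw [← (Equiv.subtypeUnivEquiv (p := fun i : Option (Fin p) => p ∣ N → i.isSome = true)
      (fun _ h' => absurd h' h)).symm.sum_comp, Fintype.sum_option, add_comm]
    congr 1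
    · exact Finset.sum_congr rfl fun j _ => hup j
    · show f ∣[k] repGL (HeckeIdx.diag h) = _
      rw [repGL, shift_diag, heckeGL_diag, SlashAction.slash_mul, diaFun, sl_slash]

end Fermat.Agent.LT.WeightOne
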