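import Fermat.Agent.LT.WeightOne.Gamma1Forms
import Fermat.Agent.Newforms.LinAlg
import Mathlib.NumberTheory.DirichletCharacter.Basic

/-!
# A normalised eigenform of all Hecke operators with prescribed eigenvalues on a set of primes
-/

set_option autoImplicit false
set_option linter.style.haveILetI false

noncomputable section

open CongruenceSubgroup UpperHalfPlane ModularFormClass
open scoped MatrixGroups ModularForm

namespace Fermat.Agent.LT.WeightOne

variable {k : ℤ} {N : ℕ} [NeZero N]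

/-- Indices of the commuting family: primes and units mod `N`. -/
abbrev OpIdx (N : ℕ) := Nat.Primes ⊕ (ZMod N)ˣ

/-- The commuting family of Hecke and diamond operators. -/
def opFam (k : ℤ) (N : ℕ) [NeZero N] : OpIdx N → Module.End ℂ (CuspForm (Gamma1 N) k)
  | .inl p => haveI : Fact (p : ℕ).Prime := ⟨p.2⟩; heckeLin k N p
  | .inr u => diaLin k N (u : ZMod N).val

theorem opFam_comm (i j : OpIdx N) : Commute (opFam k N i) (opFam k N j) := by
  refine LinearMap.ext fun f => ?_
  rcases i with ⟨p, hp⟩ | u <;> rcases j with ⟨q, hq⟩ | v <;>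
    simp only [opFam, Module.End.mul_apply, heckeLin_apply, diaLin_apply]
  · haveI := Fact.mk hp; haveI := Fact.mk hq; exact heckeForm_comm f
  · haveI := Fact.mk hp; exact (diaForm_heckeForm _ f).symm
  · haveI := Fact.mk hq; exact diaForm_heckeForm _ f
  · exact diaForm_comm _ _ (ZMod.val_coe_unit_coprime v) (ZMod.val_coe_unit_coprime u) f

/-- A simultaneous eigenvector of all operators is a multiple of a normalised eigenform. -/
theorem exists_eigenform (f : CuspForm (Gamma1 N) k) (hf : f ≠ 0) (S : Set ℕ) (a : ℕ → ℂ)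
    (hT : ∀ p : ℕ, p ∈ S → ∀ hp : p.Prime,
      haveI : Fact p.Prime := ⟨hp⟩; heckeForm p f = a p • f) :
    ∃ (g : CuspForm (Gamma1 N) k) (ε : DirichletCharacter ℂ N), qCoeff g 1 = 1 ∧
      (∀ p : ℕ, p.Prime → ¬ p ∣ N → ∀ n : ℕ,
        qCoeff g (p * n) +
            ε (p : ZMod N) * (p : ℂ) ^ (k - 1) * (if p ∣ n then qCoeff g (n / p) else 0) =
          qCoeff g p * qCoeff g n) ∧
      (∀ γ ∈ Gamma0 N, ⇑g ∣[k] γ = ε ((γ 1 1 : ℤ) : ZMod N) • ⇑g) ∧
      ∀ p : ℕ, p ∈ S → p.Prime → qCoeff g p = a p := by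
  have : FiniteDimensional ℂ (CuspForm (Gamma1 N) k) := finiteDimensional_cuspForm k
  let W : Submodule ℂ (CuspForm (Gamma1 N) k) :=
    ⨅ p : {p : Nat.Primes // (p : ℕ) ∈ S},
      Module.End.eigenspace (opFam k N (.inl p.1)) (a (p.1 : ℕ))
  have hfW : f ∈ W := Submodule.mem_iInf _ |>.2 fun p =>
    Module.End.mem_eigenspace_iff.2 (hT _ p.2 p.1.2)
  obtain ⟨x, hxW, hx0, hx⟩ := Newforms.exists_common_eigenvector (opFam k N) opFam_comm W
    (fun i y hy => Submodule.mem_iInf _ |>.2 fun p => by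
      have hy' := Module.End.mem_eigenspace_iff.1 ((Submodule.mem_iInf _).1 hy p)
      rw [Module.End.mem_eigenspace_iff, ← Module.End.mul_apply, (opFam_comm _ i).eq,
        Module.End.mul_apply, hy', map_smul])
    ((Submodule.ne_bot_iff _).2 ⟨f, hfW, hf⟩)
  choose c hc using hx
  -- the relations on coefficients
  have hrel : ∀ (p : ℕ) (hp : p.Prime) (n : ℕ), qCoeff x (n * p) +
      (if ¬ p ∣ N ∧ p ∣ n then (p : ℂ) ^ (k - 1) * qCoeff (diaForm p x) (n / p) else 0) =
      c (.inl ⟨p, hp⟩) * qCoeff x n := fun p hp n => by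
    haveI := Fact.mk hp
    rw [← qCoeff_heckeForm, show heckeForm p x = c (.inl ⟨p, hp⟩) • x from hc (.inl ⟨p, hp⟩),
      qCoeff_form_smul]
  -- the character
  have hmul : ∀ u v : (ZMod N)ˣ, c (.inr (u * v)) = c (.inr u) * c (.inr v) := fun u v => by
    refine (smul_left_injective ℂ hx0 ?_).symm
    show (c (.inr u) * c (.inr v)) • x = c (.inr (u * v)) • x
    rw [← smul_smul, ← hc, ← map_smul, ← hc, ← hc]
    show diaForm _ (diaForm _ x) = diaForm _ x
    refine diaForm_diaForm (ZMod.val_coe_unit_coprime u) (ZMod.val_coe_unit_coprime v)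
      (ZMod.val_coe_unit_coprime (u * v)) ?_ x
    push_cast
    simp only [ZMod.natCast_zmod_val, Units.val_mul]
  have hone : c (.inr 1) = 1 := by
    refine smul_left_injective ℂ hx0 ?_
    show c (.inr 1) • x = (1 : ℂ) • x
    rw [← hc, one_smul]
    exact DFunLike.coe_injective <| (isInv_form x).diaFun_of_eq_one (ZMod.val_coe_unit_coprime 1)
      (by simp [ZMod.natCast_zmod_val])
  let φ : (ZMod N)ˣ →* ℂ :=
    { toFun := fun u => c (.inr u)
      map_one' := hone
      map_mul' := hmul }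
  let ε : DirichletCharacter ℂ N := MulChar.ofUnitHom φ.toHomUnits
  have hdia : ∀ (p : ℕ), p.Prime → ¬ p ∣ N → diaForm p x = ε (p : ZMod N) • x := by
    intro p hp hpN
    haveI := Fact.mk hp
    let u : (ZMod N)ˣ := ZMod.unitOfCoprime p (coprime_of_not_dvd hpN)
    have hu : (u : ZMod N) = (p : ZMod N) := ZMod.coe_unitOfCoprime _ _
    have h1 : diaForm p x = diaForm (u : ZMod N).val x := DFunLike.coe_injective <| by
      refine (isInv_form x).slash_eq_of_map_eq ?_
      rw [gamma0Map_lowRow (coprime_of_not_dvd hpN), gamma0Map_lowRow (ZMod.val_coe_unit_coprime u),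
        ZMod.natCast_zmod_val, hu]
    rw [h1, ← hu, MulChar.ofUnitHom_coe, MonoidHom.coe_toHomUnits]
    exact hc (.inr u)
  -- the first coefficient does not vanish
  have h1 : qCoeff x 1 ≠ 0 := by
    intro h0
    refine hx0 (form_ext_qCoeff fun n => ?_)
    rw [show qCoeff (⇑(0 : CuspForm (Gamma1 N) k)) n = 0 from map_zero (coeffLin k N n)]
    induction n using Nat.strong_induction_on with
    | _ n ih =>
      rcases Nat.lt_or_ge n 2 with hn | hn
      · interval_cases n
        · exact qCoeff_form_zero x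
        · exact h0
      · obtain ⟨p, hp, m, rfl⟩ := (Nat.exists_prime_and_dvd (show n ≠ 1 by omega))
        have hm : m < p * m := lt_mul_of_one_lt_left (by rcases Nat.eq_zero_or_pos m with rfl | h <;> omega) hp.one_lt
        have hr := hrel p hp m
        rw [ih m hm, mul_zero] at hr
        rw [mul_comm p m]
        split_ifs at hr with h
        · rw [hdia p hp h.1, qCoeff_form_smul, ih _ (lt_of_le_of_lt (Nat.div_le_self _ _) hm),
            mul_zero, mul_zero, add_zero] at hr
          exact hr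
        · rwa [add_zero] at hr
  -- the nebentypus
  have hneb : ∀ γ ∈ Gamma0 N, ⇑x ∣[k] γ = ε ((γ 1 1 : ℤ) : ZMod N) • ⇑x := by
    intro γ hγ
    obtain ⟨u, hu⟩ : IsUnit (((γ 1 1 : ℤ)) : ZMod N) :=
      isUnit_iff_exists_inv.2 ⟨((γ 0 0 : ℤ) : ZMod N), by
        have hdet := congrArg (fun y : ℤ => (y : ZMod N))
          ((Matrix.det_fin_two _).symm.trans γ.det_coe)
        simp only [Int.cast_sub, Int.cast_mul, Gamma0_mem.1 hγ, mul_zero, sub_zero,
          Int.cast_one] at hdet
        rw [mul_comm]; exact hdet⟩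
    have e : Gamma0Map N ⟨γ, hγ⟩ = Gamma0Map N (lowRow N (u : ZMod N).val) := by
      rw [gamma0Map_lowRow (ZMod.val_coe_unit_coprime u), ZMod.natCast_zmod_val, hu]
      rfl
    rw [← hu, MulChar.ofUnitHom_coe, MonoidHom.coe_toHomUnits]
    show ⇑x ∣[k] γ = c (.inr u) • ⇑x
    rw [(isInv_form x).slash_eq_of_map_eq (γ := ⟨γ, hγ⟩) e, ← FunLike.coe_smul, ← hc]
    rfl
  refine ⟨(qCoeff x 1)⁻¹ • x, ε, ?_, ?_, ?_, ?_⟩
  · rw [qCoeff_form_smul, inv_mul_cancel₀ h1]
  · intro p hp hpN n
    have hc1 := hrel p hp 1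
    rw [one_mul, if_neg (fun h => hp.ne_one (Nat.dvd_one.1 h.2)), add_zero] at hc1
    have hr := hrel p hp n
    simp only [hpN, not_false_eq_true, true_and, hdia p hp hpN, qCoeff_form_smul] at hr
    simp only [qCoeff_form_smul, mul_comm p n, hc1]
    by_cases hd : p ∣ n
    · rw [if_pos hd] at hr ⊢
      field_simp
      linear_combination hr
    · rw [if_neg hd] at hr ⊢
      field_simp
      linear_combination hr
  · intro γ hγ
    rw [FunLike.coe_smul, ModularForm.SL_smul_slash, hneb γ hγ, smul_comm]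
  · intro p hpS hp
    haveI := Fact.mk hp
    have hap : c (.inl ⟨p, hp⟩) = a p := by
      refine smul_left_injective ℂ hx0 ?_
      show c (.inl ⟨p, hp⟩) • x = a p • x
      rw [← hc]
      exact Module.End.mem_eigenspace_iff.1 ((Submodule.mem_iInf _).1 hxW ⟨⟨p, hp⟩, hpS⟩)
    have hc1 := hrel p hp 1
    rw [one_mul, if_neg (fun h => hp.ne_one (Nat.dvd_one.1 h.2)), add_zero, hap] at hc1
    rw [qCoeff_form_smul, hc1]
    field_simp

end Fermat.Agent.LT.WeightOne
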