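import Fermat.Agent.LT.WeightOne.Xi
import Fermat.Agent.LT.WeightOne.PickEigen

/-!
# From a harmonic lift of weight one to a normalised eigenform

A `Γ₁(N)`-invariant function with harmonic expansions at all cusps and real Hecke eigenvalues on a
set of primes yields a normalised weight one eigenform with the same eigenvalues there: either
`ξ F ≠ 0` is such a cusp form, or `F` itself is holomorphic.
-/

set_option autoImplicit false

noncomputable section

open CongruenceSubgroup UpperHalfPlane ModularFormClass Matrix.SpecialLinearGroup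
open scoped MatrixGroups ModularForm Manifold ComplexConjugate

namespace Fermat.Agent.LT.WeightOne

variable {N : ℕ} [NeZero N]

theorem det_mapGL_pos (γ : SL(2, ℤ)) : 0 < (mapGL ℝ γ).det.val := by simp

theorem det_repGL_pos {p : ℕ} [hp : Fact p.Prime] (i : HK.HeckeIdx N p) :
    0 < (repGL i).det.val := by
  rw [Matrix.GeneralLinearGroup.val_det_apply, val_repGL, ← RingHom.mapMatrix_apply,
    ← RingHom.map_det, (inDelta_rep i).det]
  simp [hp.out.pos]

/-- A `Γ₁(N)`-invariant holomorphic function vanishing at every cusp, as a cusp form. -/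
def mkCuspForm (F : ℍ → ℂ) (hinv : IsInv 1 N F) (hol : MDiff F)
    (hz : ∀ A : SL(2, ℤ), IsZeroAtImInfty (F ∣[(1 : ℤ)] A)) : CuspForm (Gamma1 N) 1 where
  toFun := F
  slash_action_eq' := by
    rintro _ ⟨γ, hγ, rfl⟩
    exact hinv γ hγ
  holo' := hol
  zero_at_cusps' hc := by
    rw [Subgroup.IsArithmetic.isCusp_iff_isCusp_SL2Z] at hc
    exact (OnePoint.isZeroAt_iff_forall_SL2Z hc).2 fun γ _ => hz γ

@[simp] theorem coe_mkCuspForm (F : ℍ → ℂ) (hinv : IsInv 1 N F) (hol : MDiff F)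
    (hz : ∀ A : SL(2, ℤ), IsZeroAtImInfty (F ∣[(1 : ℤ)] A)) :
    ⇑(mkCuspForm F hinv hol hz) = F := rfl

variable {F : ℍ → ℂ} {h : ℕ} [NeZero h]

omit [NeZero N] in
theorem realDiff_of_hasHarmExp (hexp : HasHarmExp h (F ∣[(1 : ℤ)] (1 : SL(2, ℤ)))) : RealDiff F := by
  obtain ⟨cp, cm, hp, hm, he⟩ := hexp
  rw [SlashAction.slash_one] at he
  rw [he]
  exact (xi_harmSeries hp hm).1

omit [NeZero N] in
theorem xi_slash_eq (hexp : ∀ A : SL(2, ℤ), HasHarmExp h (F ∣[(1 : ℤ)] A)) (A : SL(2, ℤ)) :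
    ∃ c : ℕ → ℂ, IsCoeff c ∧ xi F ∣[(1 : ℤ)] A = fun τ : ℍ => qSeries h c τ := by
  obtain ⟨cp, cm, hp, hm, he⟩ := hexp A
  refine ⟨xiCoeff cm, hm.xiCoeff, ?_⟩
  rw [← (xi_harmSeries hp hm).2, ← he, sl_slash, sl_slash,
    (xi_slash (realDiff_of_hasHarmExp (hexp 1)) (det_mapGL_pos A)).2]

omit [NeZero N] in
theorem IsInv.xi (hF : RealDiff F) (hinv : IsInv 1 N F) : IsInv 1 N (WeightOne.xi F) := fun γ hγ => by
  rw [sl_slash, ← (xi_slash hF (det_mapGL_pos γ)).2, ← sl_slash, hinv γ hγ]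

theorem xi_heckeOp {p : ℕ} [Fact p.Prime] (hF : RealDiff F) :
    xi (heckeOp 1 N p F) = heckeOp 1 N p (xi F) := by
  rw [heckeOp, (realDiff_sum _ fun i => (xi_slash hF (det_repGL_pos i)).1).2]
  exact Finset.sum_congr rfl fun i _ => (xi_slash hF (det_repGL_pos i)).2

/-- The weight one conclusion of the theta lift. -/
theorem exists_eigenform_of_harmonic (F : ℍ → ℂ) (hinv : IsInv 1 N F)
    (hexp : ∀ A : SL(2, ℤ), HasHarmExp h (F ∣[(1 : ℤ)] A)) (hF : F ≠ 0)
    (S : Set ℕ) (a : ℕ → ℂ) (hreal : ∀ p ∈ S, conj (a p) = a p)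
    (hT : ∀ p : ℕ, p ∈ S → ∀ hp : p.Prime,
      haveI : Fact p.Prime := ⟨hp⟩; heckeOp 1 N p F = a p • F) :
    ∃ (f : CuspForm (Gamma1 N) 1) (ε : DirichletCharacter ℂ N), qCoeff f 1 = 1 ∧
      (∀ p : ℕ, p.Prime → ¬ p ∣ N → ∀ n : ℕ,
        qCoeff f (p * n) + ε (p : ZMod N) * (if p ∣ n then qCoeff f (n / p) else 0) =
          qCoeff f p * qCoeff f n) ∧
      (∀ γ ∈ Gamma0 N, ⇑f ∣[(1 : ℤ)] γ = ε ((γ 1 1 : ℤ) : ZMod N) • ⇑f) ∧
      ∀ p : ℕ, p ∈ S → p.Prime → qCoeff f p = a p := by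
  have hR : RealDiff F := realDiff_of_hasHarmExp (hexp 1)
  obtain ⟨f₀, hf₀, hTf⟩ : ∃ f₀ : CuspForm (Gamma1 N) 1, f₀ ≠ 0 ∧
      ∀ p : ℕ, p ∈ S → ∀ hp : p.Prime,
        haveI : Fact p.Prime := ⟨hp⟩; heckeForm p f₀ = a p • f₀ := by
    by_cases hx : xi F = 0
    · have hz : ∀ A : SL(2, ℤ), IsZeroAtImInfty (F ∣[(1 : ℤ)] A) := fun A => by
        obtain ⟨cp, cm, hp, hm, he⟩ := hexp A
        rw [he]
        exact isZeroAtImInfty_harmSeries hp hm
      refine ⟨mkCuspForm F hinv (mdiff_of_xi_eq_zero hR hx) hz,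
        fun h0 => hF ((congrArg DFunLike.coe h0).trans rfl), fun p hpS hp => ?_⟩
      have := Fact.mk hp
      exact DFunLike.coe_injective (by simpa using hT p hpS hp)
    · have hz : ∀ A : SL(2, ℤ), IsZeroAtImInfty (xi F ∣[(1 : ℤ)] A) := fun A => by
        obtain ⟨c, hc, he⟩ := xi_slash_eq hexp A
        rw [he]
        exact isZeroAtImInfty_qSeries hc
      have hol : MDiff (xi F) := by
        obtain ⟨c, hc, he⟩ := xi_slash_eq hexp 1
        rw [SlashAction.slash_one] at he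
        rw [he]
        exact mdiff_qSeries hc
      refine ⟨mkCuspForm (xi F) (hinv.xi hR) hol hz,
        fun h0 => hx ((congrArg DFunLike.coe h0).trans rfl), fun p hpS hp => ?_⟩
      have := Fact.mk hp
      refine DFunLike.coe_injective ?_
      rw [coe_heckeForm, FunLike.coe_smul, coe_mkCuspForm, ← xi_heckeOp hR, hT p hpS hp,
        xi_smul hR, hreal p hpS]
  obtain ⟨g, ε, h1, hrel, hneb, hSg⟩ := exists_eigenform f₀ hf₀ S a hTf
  exact ⟨g, ε, h1, fun p hp hpN n => by simpa using hrel p hp hpN n, hneb, hSg⟩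

end Fermat.Agent.LT.WeightOne
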